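import Fermat.Agent.S24.Comb.CuspDefs

/-!
# S24 / C5b: the cusp key is a faithful encoding of `cuspRel`, and lands in `cuspKeys`.
(one worker; statements frozen)

Notation: `(a, c)`, `(a', c')` first columns of `g`, `g'` (coprime: `isCoprime_col`);
`δ = cuspD N g = Int.gcd c N ≥ 1` (divides `N` and `c`), `c₁ = c / δ`,
`G = cuspG N δ = Nat.gcd δ (N / δ) ≥ 1`;
`cuspV N δ g = (a : ZMod G) * (c₁ : ZMod G)⁻¹`, `cuspKey N g = (δ, (cuspV N δ g).val)`.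
Facts: `gcd(c₁, N/δ) = 1` hence `c₁` is a unit mod `G` (`G ∣ N/δ`); `a` is a unit mod `G`
(`G ∣ δ ∣ c` and `IsCoprime a c`).  So `cuspV N δ g` is a unit of `ZMod G`, its `val` is `< G` and
coprime to `G` (`ZMod.val_lt`, `ZMod.val_coe_unit_coprime`; for `G = 1` the ring is trivial and
`val = 0`), which gives `cuspKey_mem` via `mem_cuspKeys`.
For `cuspKey_eq_iff_cuspRel`: keys equal ↔ `δ = δ'` and (`ZMod.val_injective`)
`a * c₁⁻¹ = a' * c₁'⁻¹` in `ZMod G` ↔ `a * c₁' = a' * c₁` in `ZMod G` (units) ↔ the congruence in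
`cuspRel` (`ZMod.intCast_eq_intCast_iff`).
(When the first components are equal, rewrite `cuspD N g'` into `cuspD N g` everywhere before
comparing the second components; `cuspV` takes `d` as an explicit argument to make this easy.)
-/

set_option autoImplicit false

noncomputable section

namespace Fermat.Agent.S24.Comb

open scoped MatrixGroups

namespace CuspKey

/-- `δ = gcd(c, N)` divides `N`. -/
theorem cuspD_dvd (N : ℕ) (g : SL(2, ℤ)) : cuspD N g ∣ N := by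
  have h : ((Int.gcd (g 1 0) (N : ℤ) : ℕ) : ℤ) ∣ (N : ℤ) := Int.gcd_dvd_right _ _
  exact Int.natCast_dvd_natCast.mp h

/-- `δ = gcd(c, N)` is positive when `N ≠ 0`. -/
theorem cuspD_pos (N : ℕ) [NeZero N] (g : SL(2, ℤ)) : 0 < cuspD N g :=
  Nat.pos_of_dvd_of_pos (cuspD_dvd N g) (NeZero.pos N)

/-- `δ = gcd(c, N)` divides `c`. -/
theorem cuspD_dvd_c (N : ℕ) (g : SL(2, ℤ)) : (cuspD N g : ℤ) ∣ g 1 0 :=
  Int.gcd_dvd_left _ _

theorem cuspG_dvd_left (N d : ℕ) : cuspG N d ∣ d := Nat.gcd_dvd_left _ _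

theorem cuspG_dvd_right (N d : ℕ) : cuspG N d ∣ N / d := Nat.gcd_dvd_right _ _

/-- `G = gcd(δ, N/δ)` is positive when `N ≠ 0`. -/
theorem cuspG_pos (N : ℕ) [NeZero N] (g : SL(2, ℤ)) : 0 < cuspG N (cuspD N g) :=
  Nat.gcd_pos_of_pos_left _ (cuspD_pos N g)

/-- `a` is a unit modulo `G` (since `G ∣ δ ∣ c` and `gcd(a, c) = 1`). -/
theorem isUnit_a (N : ℕ) (g : SL(2, ℤ)) :
    IsUnit ((g 0 0 : ℤ) : ZMod (cuspG N (cuspD N g))) := by
  rw [ZMod.coe_int_isUnit_iff_isCoprime]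
  have h1 : IsCoprime (g 0 0) (g 1 0) := isCoprime_col g
  have h2 : ((cuspG N (cuspD N g) : ℕ) : ℤ) ∣ g 1 0 :=
    (Int.natCast_dvd_natCast.mpr (cuspG_dvd_left N _)).trans (cuspD_dvd_c N g)
  exact (h1.of_isCoprime_of_dvd_right h2).symm

/-- `c / δ` is a unit modulo `G` (since `G ∣ N/δ` and `gcd(c/δ, N/δ) = 1`). -/
theorem isUnit_c (N : ℕ) [NeZero N] (g : SL(2, ℤ)) :
    IsUnit (((g 1 0 / (cuspD N g : ℤ) : ℤ)) : ZMod (cuspG N (cuspD N g))) := by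
  rw [ZMod.coe_int_isUnit_iff_isCoprime]
  have hpos : 0 < Int.gcd (g 1 0) (N : ℤ) := cuspD_pos N g
  have h1 : Int.gcd (g 1 0 / (cuspD N g : ℤ)) ((N : ℤ) / (cuspD N g : ℤ)) = 1 :=
    Int.gcd_ediv_gcd_ediv_gcd hpos
  have h2 : ((cuspG N (cuspD N g) : ℕ) : ℤ) ∣ (N : ℤ) / (cuspD N g : ℤ) := by
    rw [← Int.natCast_ediv]
    exact Int.natCast_dvd_natCast.mpr (cuspG_dvd_right N _)
  exact ((Int.isCoprime_iff_gcd_eq_one.mpr h1).of_isCoprime_of_dvd_right h2).symm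

/-- `c' / δ` is a unit modulo `G` as soon as `δ = δ'`. -/
theorem isUnit_c' (N : ℕ) [NeZero N] (g g' : SL(2, ℤ)) (hd : cuspD N g = cuspD N g') :
    IsUnit (((g' 1 0 / (cuspD N g : ℤ) : ℤ)) : ZMod (cuspG N (cuspD N g))) := by
  rw [hd]
  exact isUnit_c N g'

/-- `a'` is a unit modulo `G` as soon as `δ = δ'`. -/
theorem isUnit_a' (N : ℕ) (g g' : SL(2, ℤ)) (hd : cuspD N g = cuspD N g') :
    IsUnit ((g' 0 0 : ℤ) : ZMod (cuspG N (cuspD N g))) := by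
  rw [hd]
  exact isUnit_a N g'

/-- The invariant `a * (c/δ)⁻¹` is a unit of `ZMod G`. -/
theorem isUnit_cuspV (N : ℕ) [NeZero N] (g : SL(2, ℤ)) : IsUnit (cuspV N (cuspD N g) g) := by
  unfold cuspV
  exact (isUnit_a N g).mul (ZMod.isUnit_inv (isUnit_c N g))

/-- In `ZMod n`, for units `x`, `y`: `a * x⁻¹ = b * y⁻¹ ↔ a * y = b * x`. -/
theorem mul_inv_eq_mul_inv_iff {n : ℕ} (a b x y : ZMod n) (hx : IsUnit x) (hy : IsUnit y) :
    a * x⁻¹ = b * y⁻¹ ↔ a * y = b * x := by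
  constructor
  · intro h
    calc a * y = a * x⁻¹ * x * y := by
            rw [mul_assoc a, ZMod.inv_mul_of_unit x hx, mul_one]
      _ = b * y⁻¹ * x * y := by rw [h]
      _ = b * x * (y⁻¹ * y) := by ring
      _ = b * x := by rw [ZMod.inv_mul_of_unit y hy, mul_one]
  · intro h
    calc a * x⁻¹ = a * y * y⁻¹ * x⁻¹ := by
            rw [mul_assoc a, ZMod.mul_inv_of_unit y hy, mul_one]
      _ = b * x * y⁻¹ * x⁻¹ := by rw [h]
      _ = b * y⁻¹ * (x * x⁻¹) := by ring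
      _ = b * y⁻¹ := by rw [ZMod.mul_inv_of_unit x hx, mul_one]

/-- For `δ = δ'`, equality of the invariants in `ZMod G` is the congruence of `cuspRel`. -/
theorem cuspV_eq_iff (N : ℕ) [NeZero N] (g g' : SL(2, ℤ)) (hd : cuspD N g = cuspD N g') :
    cuspV N (cuspD N g) g = cuspV N (cuspD N g) g' ↔
      g 0 0 * (g' 1 0 / (cuspD N g : ℤ)) ≡ g' 0 0 * (g 1 0 / (cuspD N g : ℤ))
        [ZMOD (cuspG N (cuspD N g) : ℤ)] := by
  rw [← ZMod.intCast_eq_intCast_iff, Int.cast_mul, Int.cast_mul]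
  unfold cuspV
  exact mul_inv_eq_mul_inv_iff _ _ _ _ (isUnit_c N g) (isUnit_c' N g g' hd)

end CuspKey

open CuspKey

theorem cuspKey_mem (N : ℕ) [NeZero N] (g : SL(2, ℤ)) : cuspKey N g ∈ cuspKeys N := by
  have : NeZero (cuspG N (cuspD N g)) := ⟨(cuspG_pos N g).ne'⟩
  rw [mem_cuspKeys]
  refine ⟨Nat.mem_divisors.mpr ⟨cuspD_dvd N g, NeZero.ne N⟩, ?_, ?_⟩
  · exact ZMod.val_lt _
  · obtain ⟨u, hu⟩ := isUnit_cuspV N g
    have h := ZMod.val_coe_unit_coprime u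
    rw [hu] at h
    exact h.symm

theorem cuspKey_eq_iff_cuspRel (N : ℕ) [NeZero N] (g g' : SL(2, ℤ)) :
    cuspKey N g = cuspKey N g' ↔ cuspRel N g g' := by
  have : NeZero (cuspG N (cuspD N g)) := ⟨(cuspG_pos N g).ne'⟩
  unfold cuspKey cuspRel
  rw [Prod.mk.injEq]
  constructor
  · rintro ⟨hd, hv⟩
    refine ⟨hd, ?_⟩
    rw [← hd] at hv
    exact (cuspV_eq_iff N g g' hd).mp (ZMod.val_injective _ hv)
  · rintro ⟨hd, hrel⟩
    refine ⟨hd, ?_⟩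
    rw [← hd]
    exact congrArg ZMod.val ((cuspV_eq_iff N g g' hd).mpr hrel)

end Fermat.Agent.S24.Comb
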