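import Fermat.Agent.S24.Comb.CuspDefs

/-!
# S24 / C5c: every cusp key occurs, and there are `cuspCount N` of them.
(one worker; statements frozen)

`cuspKey_surj`: let `(d, m) ∈ cuspKeys N`, i.e. (`mem_cuspKeys`) `d ∣ N`, `m < G`, `gcd(G, m) = 1`
with `G = cuspG N d = Nat.gcd d (N / d)`.  `m` is a unit mod `G`; lift it to a unit mod `d`
(`ZMod.unitsMap_surjective`, `G ∣ d`, `d ≠ 0`; or directly: there is `a : ℕ` with `a ≡ m [MOD G]`
and `Nat.Coprime a d`), take `g` with first column `(a, d)` (`exists_col`).  Then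
`cuspD N g = Int.gcd d N = d`, `d / d = 1`, `cuspV N d g = (a : ZMod G) * 1⁻¹ = (m : ZMod G)` and
`((m : ZMod G)).val = m` as `m < G` (`ZMod.val_natCast_of_lt`; if `G = 1` then `m = 0`).
`card_cuspKeys`: the union over `d` is disjoint (first components differ), `Finset.card_biUnion`,
`Finset.card_image_of_injective`, `Nat.totient_eq_card_coprime`
(`φ n = #{m ∈ range n | n.Coprime m}`), and
`ModularCurve.cuspCount N = ∑ d ∈ N.divisors, Nat.totient (Nat.gcd d (N / d))`.
-/

set_option autoImplicit false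

noncomputable section

namespace Fermat.Agent.S24.Comb

open ModularCurve
open scoped MatrixGroups

namespace CuspSurj

/-- Lifting a unit: if `G ∣ d`, `d ≠ 0` and `m` is coprime to `G`, there is a natural number
`a ≡ m [MOD G]` which is coprime to `d`. -/
theorem exists_lift {G d m : ℕ} (hd : d ≠ 0) (hG : G ∣ d) (hm : G.Coprime m) :
    ∃ a : ℕ, (a : ZMod G) = (m : ZMod G) ∧ a.Coprime d := by
  have : NeZero d := ⟨hd⟩
  obtain ⟨u, hu⟩ := ZMod.unitsMap_surjective hG (ZMod.unitOfCoprime m hm.symm)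
  refine ⟨(u : ZMod d).val, ?_, ZMod.val_coe_unit_coprime u⟩
  have h1 : ((ZMod.unitsMap hG u : (ZMod G)ˣ) : ZMod G) = (m : ZMod G) := by
    rw [hu, ZMod.coe_unitOfCoprime]
  rw [ZMod.unitsMap_val] at h1
  rw [← h1, ZMod.natCast_val]

/-- The `d`-th piece of `cuspKeys N` has `φ(gcd(d, N / d))` elements. -/
theorem card_piece (N d : ℕ) :
    (((Finset.range (cuspG N d)).filter fun m => (cuspG N d).Coprime m).image
      fun m => ((d, m) : ℕ × ℕ)).card = Nat.totient (Nat.gcd d (N / d)) := by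
  rw [Finset.card_image_of_injective _ (Prod.mk_right_injective d), Nat.totient_eq_card_coprime]
  rfl

end CuspSurj

open CuspSurj

theorem cuspKey_surj (N : ℕ) [NeZero N] (p : ℕ × ℕ) (hp : p ∈ cuspKeys N) :
    ∃ g : SL(2, ℤ), cuspKey N g = p := by
  obtain ⟨d, m⟩ := p
  rw [mem_cuspKeys] at hp
  obtain ⟨hd, hm, hc⟩ := hp
  have hdN : d ∣ N := Nat.dvd_of_mem_divisors hd
  have hd0 : d ≠ 0 := fun h => NeZero.ne N (Nat.eq_zero_of_zero_dvd (h ▸ hdN))
  have hG : cuspG N d ∣ d := Nat.gcd_dvd_left _ _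
  obtain ⟨a, ha, hcop⟩ := exists_lift hd0 hG hc
  obtain ⟨g, hg0, hg1⟩ :=
    exists_col (a := (a : ℤ)) (c := (d : ℤ)) (Nat.isCoprime_iff_coprime.mpr hcop)
  refine ⟨g, ?_⟩
  have hD : cuspD N g = d := by
    rw [cuspD, hg1, Int.gcd_natCast_natCast, Nat.gcd_eq_left hdN]
  have hd0' : (d : ℤ) ≠ 0 := Int.natCast_ne_zero.mpr hd0
  have hV : cuspV N d g = (m : ZMod (cuspG N d)) := by
    rw [cuspV, hg0, hg1, Int.ediv_self hd0', Int.cast_one, ZMod.inv_one, mul_one,
      Int.cast_natCast, ha]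
  rw [cuspKey, hD, hV, ZMod.val_natCast_of_lt hm]

theorem card_cuspKeys (N : ℕ) : (cuspKeys N).card = cuspCount N := by
  rw [cuspKeys, cuspCount, Finset.card_biUnion]
  · exact Finset.sum_congr rfl fun d _ => card_piece N d
  · intro d _ d' _ hdd'
    rw [Function.onFun, Finset.disjoint_left]
    intro p hp hp'
    rw [Finset.mem_image] at hp hp'
    obtain ⟨m, _, rfl⟩ := hp
    obtain ⟨m', _, h⟩ := hp'
    exact hdd' (congrArg Prod.fst h).symm

end Fermat.Agent.S24.Comb
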