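import Fermat.Agent.S24.Comb.CuspRel
import Fermat.Agent.S24.Comb.CuspKey
import Fermat.Agent.S24.Comb.CuspSurj

/-!
# S24 / C5: the number of `⟨T⟩`-orbits on the cosets is `cuspCount N` (assembly; owner: helper20).
-/

set_option autoImplicit false

noncomputable section

namespace Fermat.Agent.S24.Comb

open ModularCurve
open scoped MatrixGroups
open ModularGroup

theorem orbT (N : ℕ) [NeZero N] : orbCard N T = cuspCount N := by
  have h1 := card_eq_card_range (A := SL(2, ℤ))
    (Q := MulAction.orbitRel.Quotient (Subgroup.zpowers T) (Cosets N))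
    (fun g => Quotient.mk'' (cmk N g))
    (fun q => by
      obtain ⟨x, rfl⟩ := Quotient.mk''_surjective q
      obtain ⟨g, rfl⟩ := cmk_surjective N x
      exact ⟨g, rfl⟩)
    (cuspKey N)
    (fun g g' => by
      rw [orbit_mk_eq_iff, orbit_iff_cuspRel, cuspKey_eq_iff_cuspRel])
  have h2 : Set.range (cuspKey N) = ↑(cuspKeys N) := by
    ext p
    constructor
    · rintro ⟨g, rfl⟩
      exact cuspKey_mem N g
    · intro hp
      exact cuspKey_surj N p hp
  rw [h2] at h1
  rw [orbCard, h1, ← card_cuspKeys N]
  simp

end Fermat.Agent.S24.Comb
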