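import Fermat.Agent.S24.Comb.Defs

/-!
# S24 / C2: cosets fixed by `S` are counted by `ν₂(N)`.   (one worker; statement frozen)

Math: for `g` with first column `(a, c)`, `S * g` has first column `(-c, a)`
(`S_mul_apply_zero_zero`, `S_mul_apply_one_zero`), so by `cmk_eq_cmk_iff` the coset `cmk N g` is
fixed by `S` iff `N ∣ a^2 + c^2`.  Then `c` is a unit mod `N` (as `IsCoprime a c`), and
`x := a * c⁻¹ : ZMod N` satisfies `x^2 + 1 = 0`.  Two fixed cosets are equal iff `a * c' = c * a'`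
in `ZMod N` iff the `x`'s agree.  Every root `x` occurs: take the matrix with first column
`(x̃, 1)` (`exists_col`).  Conclude e.g. with `card_eq_card_range` applied to
`A := {g : SL(2, ℤ) // cmk N (S * g) = cmk N g}`, `π g := ⟨cmk N g, _⟩`, `key g := a * c⁻¹`.
-/

set_option autoImplicit false

noncomputable section

namespace Fermat.Agent.S24.Comb

open ModularCurve
open scoped MatrixGroups

namespace FixS

open ModularGroup

/-- The coset `cmk N g` is fixed by `S` iff `a ^ 2 + c ^ 2 = 0` in `ZMod N`, where `(a, c)` is the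
first column of `g`. -/
theorem fixed_iff (N : ℕ) (g : SL(2, ℤ)) :
    cmk N (S * g) = cmk N g ↔
      ((g 0 0 : ℤ) : ZMod N) ^ 2 + ((g 1 0 : ℤ) : ZMod N) ^ 2 = 0 := by
  rw [cmk_eq_cmk_iff', S_mul_apply_zero_zero, S_mul_apply_one_zero]
  push_cast
  constructor
  · intro h
    linear_combination (-1 : ZMod N) * h
  · intro h
    linear_combination (-1 : ZMod N) * h

/-- Purely algebraic: if `u * a + v * c = 1` and `a ^ 2 + c ^ 2 = 0` then `c` is a unit. -/
theorem isUnit_of_sq_add_sq {R : Type*} [CommRing R] {a c : R} (hac : IsCoprime a c)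
    (h : a ^ 2 + c ^ 2 = 0) : IsUnit c := by
  obtain ⟨u, v, huv⟩ := hac
  rw [isUnit_iff_exists_inv]
  refine ⟨-u ^ 2 * c + 2 * u * v * a + v ^ 2 * c, ?_⟩
  linear_combination (u * a + v * c + 1) * huv - u ^ 2 * h

/-- If `cmk N g` is fixed by `S`, the lower-left entry of `g` is a unit mod `N`. -/
theorem isUnit_of_fixed (N : ℕ) (g : SL(2, ℤ))
    (h : ((g 0 0 : ℤ) : ZMod N) ^ 2 + ((g 1 0 : ℤ) : ZMod N) ^ 2 = 0) :
    IsUnit ((g 1 0 : ℤ) : ZMod N) :=
  isUnit_of_sq_add_sq ((isCoprime_col g).map (Int.castRingHom (ZMod N))) h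

/-- If `cmk N g` is fixed by `S`, the lower-left entry of `g` times its inverse is `1`. -/
theorem mul_inv_of_fixed (N : ℕ) (g : SL(2, ℤ)) (h : cmk N (S * g) = cmk N g) :
    ((g 1 0 : ℤ) : ZMod N) * ((g 1 0 : ℤ) : ZMod N)⁻¹ = 1 :=
  ZMod.mul_inv_of_unit _ (isUnit_of_fixed N g ((fixed_iff N g).mp h))

/-- The invariant `a * c⁻¹ : ZMod N` of a matrix with first column `(a, c)`. -/
def key (N : ℕ) (g : SL(2, ℤ)) : ZMod N :=
  ((g 0 0 : ℤ) : ZMod N) * ((g 1 0 : ℤ) : ZMod N)⁻¹

/-- Purely algebraic: cross-multiplication with units. -/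
theorem cross_iff {R : Type*} [CommRing R] (a c a' c' ci ci' : R) (hc : c * ci = 1)
    (hc' : c' * ci' = 1) : a * c' = c * a' ↔ a * ci = a' * ci' := by
  constructor
  · intro h
    linear_combination (ci * ci') * h - a * ci * hc' + a' * ci' * hc
  · intro h
    linear_combination (c * c') * h - a * c' * hc + a' * c * hc'

/-- Two `S`-fixed cosets coincide iff their invariants `key` coincide. -/
theorem cmk_eq_iff_key (N : ℕ) (g g' : SL(2, ℤ)) (h : cmk N (S * g) = cmk N g)
    (h' : cmk N (S * g') = cmk N g') : cmk N g = cmk N g' ↔ key N g = key N g' := by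
  rw [cmk_eq_cmk_iff']
  exact cross_iff _ _ _ _ _ _ (mul_inv_of_fixed N g h) (mul_inv_of_fixed N g' h')

/-- Purely algebraic: `a * c⁻¹` is a root of `x ^ 2 + 1`. -/
theorem sq_add_one_aux {R : Type*} [CommRing R] (a c ci : R) (hc : c * ci = 1)
    (h : a ^ 2 + c ^ 2 = 0) : (a * ci) ^ 2 + 1 = 0 := by
  linear_combination ci ^ 2 * h - (c * ci + 1) * hc

/-- The invariant of an `S`-fixed coset is a root of `x ^ 2 + 1`. -/
theorem key_sq_add_one (N : ℕ) (g : SL(2, ℤ)) (h : cmk N (S * g) = cmk N g) :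
    key N g ^ 2 + 1 = 0 :=
  sq_add_one_aux _ _ _ (mul_inv_of_fixed N g h) ((fixed_iff N g).mp h)

/-- Every root of `x ^ 2 + 1` in `ZMod N` is the invariant of an `S`-fixed coset. -/
theorem exists_key_eq (N : ℕ) [NeZero N] (x : ZMod N) (hx : x ^ 2 + 1 = 0) :
    ∃ g : SL(2, ℤ), cmk N (S * g) = cmk N g ∧ key N g = x := by
  obtain ⟨g, hg0, hg1⟩ := exists_col (isCoprime_one_right (x := ((x.val : ℕ) : ℤ)))
  have ha : ((g 0 0 : ℤ) : ZMod N) = x := by
    rw [hg0, Int.cast_natCast, ZMod.natCast_zmod_val]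
  have hc : ((g 1 0 : ℤ) : ZMod N) = 1 := by
    rw [hg1, Int.cast_one]
  have hfix : cmk N (S * g) = cmk N g := by
    rw [fixed_iff, ha, hc, one_pow]
    exact hx
  refine ⟨g, hfix, ?_⟩
  have h1 := mul_inv_of_fixed N g hfix
  rw [hc, one_mul] at h1
  rw [key, ha, hc, h1, mul_one]

/-- The set of invariants of `S`-fixed cosets is the set of roots of `x ^ 2 + 1`. -/
theorem range_key (N : ℕ) [NeZero N] :
    Set.range (fun g : {g : SL(2, ℤ) // cmk N (S * g) = cmk N g} => key N g.1)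
      = {x : ZMod N | x ^ 2 + 1 = 0} := by
  ext x
  constructor
  · rintro ⟨g, rfl⟩
    exact key_sq_add_one N g.1 g.2
  · intro hx
    obtain ⟨g, hg, hgx⟩ := exists_key_eq N x hx
    exact ⟨⟨g, hg⟩, hgx⟩

/-- The projection from `S`-fixed matrices to `S`-fixed cosets. -/
def proj (N : ℕ) (g : {g : SL(2, ℤ) // cmk N (S * g) = cmk N g}) :
    MulAction.fixedBy (Cosets N) S :=
  ⟨cmk N g.1, by rw [MulAction.mem_fixedBy, smul_cmk]; exact g.2⟩

theorem proj_surjective (N : ℕ) : Function.Surjective (proj N) := by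
  rintro ⟨x, hx⟩
  obtain ⟨g, rfl⟩ := cmk_surjective N x
  rw [MulAction.mem_fixedBy, smul_cmk] at hx
  exact ⟨⟨g, hx⟩, rfl⟩

theorem proj_eq_iff (N : ℕ) (g g' : {g : SL(2, ℤ) // cmk N (S * g) = cmk N g}) :
    proj N g = proj N g' ↔ key N g.1 = key N g'.1 := by
  rw [← cmk_eq_iff_key N g.1 g'.1 g.2 g'.2]
  exact Subtype.ext_iff

end FixS

open FixS in
/-- The cosets fixed by `S` are counted by `ν₂(N)`. -/
theorem fixS_card (N : ℕ) [NeZero N] :
    Nat.card (MulAction.fixedBy (Cosets N) ModularGroup.S) = nuTwo N := by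
  rw [card_eq_card_range (proj N) (proj_surjective N) (fun g => key N g.1) (proj_eq_iff N),
    range_key N]
  rfl

end Fermat.Agent.S24.Comb
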