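import Fermat.Agent.S24.Comb.Defs

/-!
# S24 / C3: cosets fixed by `S * T` are counted by `ν₃(N)`.   (one worker; statement frozen)

Math: for `g` with first column `(a, c)`, `S * T * g` has first column `(-c, a + c)`
(`ST_mul_apply_zero_zero`, `ST_mul_apply_one_zero`), so by `cmk_eq_cmk_iff` the coset `cmk N g` is
fixed by `S * T` iff `N ∣ a^2 + a*c + c^2`.  Then `a` is a unit mod `N` (as `IsCoprime a c`), and
`x := c * a⁻¹ : ZMod N` satisfies `x^2 + x + 1 = 0`.  Two fixed cosets are equal iff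
`a * c' = c * a'` in `ZMod N` iff the `x`'s agree.  Every root `x` occurs: take the matrix with
first column `(1, x̃)` (`exists_col`).  Conclude e.g. with `card_eq_card_range` applied to
`A := {g : SL(2, ℤ) // cmk N (S * T * g) = cmk N g}`, `π g := ⟨cmk N g, _⟩`, `key g := c * a⁻¹`.
-/

set_option autoImplicit false

noncomputable section

namespace Fermat.Agent.S24.Comb

open ModularCurve
open scoped MatrixGroups

namespace FixST

open ModularGroup

/-- The coset of `g` (first column `(a, c)`) is fixed by `S * T` iff `a^2 + a*c + c^2 = 0` in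
`ZMod N`. -/
theorem fixed_iff (N : ℕ) (g : SL(2, ℤ)) :
    cmk N (S * T * g) = cmk N g ↔
      ((g 0 0 : ℤ) : ZMod N) ^ 2 + ((g 0 0 : ℤ) : ZMod N) * ((g 1 0 : ℤ) : ZMod N)
        + ((g 1 0 : ℤ) : ZMod N) ^ 2 = 0 := by
  rw [cmk_eq_cmk_iff', ST_mul_apply_zero_zero, ST_mul_apply_one_zero]
  push_cast
  constructor
  · intro h
    linear_combination -h
  · intro h
    linear_combination -h

/-- Pure algebra: if `a, c` are coprime and `a^2 + a*c + c^2 = 0` then `a` is a unit. -/
theorem isUnit_of_rel {R : Type*} [CommRing R] {a c : R} (hc : IsCoprime a c)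
    (h : a ^ 2 + a * c + c ^ 2 = 0) : IsUnit a := by
  obtain ⟨u, v, huv⟩ := hc
  refine IsUnit.of_mul_eq_one (u ^ 2 * a + 2 * u * v * c - v ^ 2 * (a + c)) ?_
  linear_combination (u * a + v * c + 1) * huv - v ^ 2 * h

/-- The upper left entry of a matrix whose coset is fixed by `S * T` is a unit mod `N`. -/
theorem isUnit_col (N : ℕ) (g : SL(2, ℤ)) (h : cmk N (S * T * g) = cmk N g) :
    IsUnit ((g 0 0 : ℤ) : ZMod N) := by
  have hc : IsCoprime ((g 0 0 : ℤ) : ZMod N) ((g 1 0 : ℤ) : ZMod N) :=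
    (isCoprime_col g).map (Int.castRingHom (ZMod N))
  exact isUnit_of_rel hc ((fixed_iff N g).mp h)

/-- The invariant `c * a⁻¹ : ZMod N` of a matrix with first column `(a, c)`. -/
def key (N : ℕ) (g : SL(2, ℤ)) : ZMod N :=
  ((g 1 0 : ℤ) : ZMod N) * ((g 0 0 : ℤ) : ZMod N)⁻¹

/-- Pure algebra in a commutative ring: if `a * i = 1` and `a^2 + a*c + c^2 = 0`, then `c * i` is
a root of `x^2 + x + 1`. -/
theorem root_of_rel {R : Type*} [CommRing R] {a c i : R} (h1 : a * i = 1)
    (h2 : a ^ 2 + a * c + c ^ 2 = 0) : (c * i) ^ 2 + c * i + 1 = 0 := by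
  linear_combination i ^ 2 * h2 - (c * i + 1 + a * i) * h1

/-- Pure algebra in a commutative ring: for units `a`, `a'` with inverses `i`, `i'`,
`a * c' = c * a'` iff `c * i = c' * i'`. -/
theorem prop_iff {R : Type*} [CommRing R] {a c i a' c' i' : R} (h1 : a * i = 1)
    (h1' : a' * i' = 1) : a * c' = c * a' ↔ c * i = c' * i' := by
  constructor
  · intro e
    linear_combination -(i * i') * e - c * i * h1' + c' * i' * h1
  · intro e
    linear_combination -(a * a') * e - a * c' * h1' + c * a' * h1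

/-- The invariant of a fixed coset is a root of `x^2 + x + 1`. -/
theorem key_root (N : ℕ) (g : SL(2, ℤ)) (h : cmk N (S * T * g) = cmk N g) :
    key N g ^ 2 + key N g + 1 = 0 :=
  root_of_rel (ZMod.mul_inv_of_unit _ (isUnit_col N g h)) ((fixed_iff N g).mp h)

/-- Two fixed cosets are equal iff their invariants agree. -/
theorem key_eq_iff (N : ℕ) (g g' : SL(2, ℤ)) (h : cmk N (S * T * g) = cmk N g)
    (h' : cmk N (S * T * g') = cmk N g') :
    cmk N g = cmk N g' ↔ key N g = key N g' := by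
  rw [cmk_eq_cmk_iff']
  exact prop_iff (ZMod.mul_inv_of_unit _ (isUnit_col N g h))
    (ZMod.mul_inv_of_unit _ (isUnit_col N g' h'))

/-- Every root of `x^2 + x + 1` in `ZMod N` is the invariant of a fixed coset. -/
theorem exists_key_eq (N : ℕ) (x : ZMod N) (hx : x ^ 2 + x + 1 = 0) :
    ∃ g : SL(2, ℤ), cmk N (S * T * g) = cmk N g ∧ key N g = x := by
  obtain ⟨n, rfl⟩ := ZMod.intCast_surjective x
  obtain ⟨g, h0, h1⟩ := exists_col (isCoprime_one_left : IsCoprime (1 : ℤ) n)
  refine ⟨g, ?_, ?_⟩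
  · rw [fixed_iff, h0, h1, Int.cast_one]
    linear_combination hx
  · rw [key, h0, h1, Int.cast_one, ZMod.inv_one, mul_one]

end FixST

/-- The cosets fixed by `S * T` are counted by `ν₃(N)`. -/
theorem fixST_card (N : ℕ) [NeZero N] :
    Nat.card (MulAction.fixedBy (Cosets N) (ModularGroup.S * ModularGroup.T)) = nuThree N := by
  let A : Type := {g : SL(2, ℤ) // cmk N (ModularGroup.S * ModularGroup.T * g) = cmk N g}
  let π : A → MulAction.fixedBy (Cosets N) (ModularGroup.S * ModularGroup.T) :=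
    fun g => ⟨cmk N g.1, by rw [MulAction.mem_fixedBy, smul_cmk]; exact g.2⟩
  have hπ : Function.Surjective π := by
    rintro ⟨x, hx⟩
    obtain ⟨g, rfl⟩ := cmk_surjective N x
    rw [MulAction.mem_fixedBy, smul_cmk] at hx
    exact ⟨⟨g, hx⟩, rfl⟩
  let key' : A → ZMod N := fun g => FixST.key N g.1
  have hkey : ∀ a a', π a = π a' ↔ key' a = key' a' := by
    intro a a'
    rw [Subtype.ext_iff]
    exact FixST.key_eq_iff N a.1 a'.1 a.2 a'.2
  have hrange : Set.range key' = {x : ZMod N | x ^ 2 + x + 1 = 0} := by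
    ext x
    constructor
    · rintro ⟨a, rfl⟩
      exact FixST.key_root N a.1 a.2
    · intro hx
      obtain ⟨g, hg, rfl⟩ := FixST.exists_key_eq N x hx
      exact ⟨⟨g, hg⟩, rfl⟩
  rw [card_eq_card_range π hπ key' hkey, hrange]
  rfl

end Fermat.Agent.S24.Comb
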