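import Fermat.Agent.S24.Comb.Defs

/-!
# S24 / C4: orbits of an element whose `p`-th power acts trivially (`p` prime).
(one worker; statements frozen)

`prime_mul_card_orbits`: every orbit of `⟨g⟩` is a fixed point or has exactly `p` elements, so
`p * #orbits = #X + (p - 1) * #Fix(g)`.
Possible proofs: (a) sum the fibre sizes of `X → orbits`; (b) Burnside
(`MulAction.sum_card_fixedBy_eq_card_orbits_mul_card_group`) for the finite cyclic group
`Subgroup.zpowers (MulAction.toPerm g)` of order `1` or `p`, whose orbits on `X` are those of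
`Subgroup.zpowers g`.
`S_sq_smul`, `ST_cube_smul`: use `cmk_surjective`, `smul_cmk`, `cmk_eq_cmk_iff` and the
first-column lemmas of `Defs.lean` (the first column of `S^2 * g`, `(S*T)^3 * g` is `-(a, c)`).

Proof used here for `prime_mul_card_orbits` (variant of (a)): `X` is the disjoint union of the
orbits `⟨g⟩ • ω.out`, the orbit of `x` has `Function.minimalPeriod (g • ·) x` elements, and this
number divides `p`, so it is `1` (iff `x` is fixed by `g`) or `p`.  The orbits whose representative
is a fixed point are in bijection with the fixed points.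
-/

set_option autoImplicit false

noncomputable section

namespace Fermat.Agent.S24.Comb

open scoped MatrixGroups
open ModularGroup

namespace OrbitsPrime

section General

variable {G X : Type*} [Group G] [MulAction G X]

/-- A point in the `⟨g⟩`-orbit of a fixed point `x` of `g` is equal to `x`. -/
theorem eq_of_mem_orbit_of_mem_fixedBy {g : G} {x y : X} (hx : x ∈ MulAction.fixedBy X g)
    (hy : y ∈ MulAction.orbit (Subgroup.zpowers g) x) : y = x := by
  obtain ⟨⟨_, k, rfl⟩, rfl⟩ := hy
  exact MulAction.mem_fixedBy_zpow hx k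

/-- The chosen representative of the orbit of a fixed point `x` is `x`. -/
theorem out_mk_of_mem_fixedBy {g : G} {x : X} (hx : x ∈ MulAction.fixedBy X g) :
    (Quotient.mk'' x : MulAction.orbitRel.Quotient (Subgroup.zpowers g) X).out = x :=
  eq_of_mem_orbit_of_mem_fixedBy hx
    (MulAction.orbitRel_apply.mp (Quotient.mk_out' (s₁ := MulAction.orbitRel _ X) x))

/-- The fixed points of `g` are in bijection with the orbits of `⟨g⟩` whose chosen representative
is a fixed point. -/
def fixedEquiv (g : G) :
    MulAction.fixedBy X g ≃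
      {ω : MulAction.orbitRel.Quotient (Subgroup.zpowers g) X // ω.out ∈ MulAction.fixedBy X g}
    where
  toFun x := ⟨Quotient.mk'' x.1, by rw [out_mk_of_mem_fixedBy x.2]; exact x.2⟩
  invFun ω := ⟨ω.1.out, ω.2⟩
  left_inv x := Subtype.ext (out_mk_of_mem_fixedBy x.2)
  right_inv ω := Subtype.ext (Quotient.out_eq' ω.1)

/-- If `g ^ p` fixes `x` (`p` prime), the minimal period of `x` under `g` is `1` or `p`. -/
theorem minimalPeriod_eq (g : G) (p : ℕ) (hp : p.Prime) (x : X) (hx : g ^ p • x = x)
    [Decidable (x ∈ MulAction.fixedBy X g)] :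
    Function.minimalPeriod (g • ·) x = if x ∈ MulAction.fixedBy X g then 1 else p := by
  split_ifs with h
  · exact MulAction.minimalPeriod_eq_one_iff_fixedBy.mpr h
  · have hdvd : Function.minimalPeriod (g • ·) x ∣ p := by
      apply Function.IsPeriodicPt.minimalPeriod_dvd
      rw [Function.IsPeriodicPt, Function.IsFixedPt, smul_iterate]
      exact hx
    rcases (Nat.dvd_prime hp).mp hdvd with h1 | h1
    · exact absurd (MulAction.minimalPeriod_eq_one_iff_fixedBy.mp h1) h
    · exact h1

/-- `X` is the disjoint union of the orbits, and the orbit of `x` has `minimalPeriod (g • ·) x`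
elements. -/
theorem card_eq_sum_minimalPeriod [Finite X] (g : G)
    [Fintype (MulAction.orbitRel.Quotient (Subgroup.zpowers g) X)] :
    Nat.card X = ∑ ω : MulAction.orbitRel.Quotient (Subgroup.zpowers g) X,
      Function.minimalPeriod (g • ·) ω.out := by
  classical
  have : Fintype X := Fintype.ofFinite X
  have : ∀ ω : MulAction.orbitRel.Quotient (Subgroup.zpowers g) X,
      Fintype (MulAction.orbit (Subgroup.zpowers g) ω.out) := fun ω => Fintype.ofFinite _
  simp only [MulAction.minimalPeriod_eq_card]
  rw [← Fintype.card_sigma, Nat.card_eq_fintype_card]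
  exact Fintype.card_congr (MulAction.selfEquivSigmaOrbits (Subgroup.zpowers g) X)

/-- The number of fixed points is the number of orbits whose representative is a fixed point. -/
theorem card_fixedBy_eq_sum [Finite X] (g : G)
    [Fintype (MulAction.orbitRel.Quotient (Subgroup.zpowers g) X)]
    [DecidablePred fun ω : MulAction.orbitRel.Quotient (Subgroup.zpowers g) X =>
      ω.out ∈ MulAction.fixedBy X g] :
    Nat.card (MulAction.fixedBy X g) = ∑ ω : MulAction.orbitRel.Quotient (Subgroup.zpowers g) X,
      if ω.out ∈ MulAction.fixedBy X g then 1 else 0 := by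
  rw [Nat.card_congr (fixedEquiv g), Nat.card_eq_fintype_card, Fintype.card_subtype,
    Finset.card_filter]

end General

/-- Every integer divides an integer which is equal to `0`. -/
theorem dvd_of_eq_zero (N : ℕ) {z : ℤ} (hz : z = 0) : (N : ℤ) ∣ z := hz ▸ dvd_zero _

/-- `a ^ 3 * g = a * (a * (a * g))`. -/
theorem pow_three_mul (a g : SL(2, ℤ)) : a ^ 3 * g = a * (a * (a * g)) := by
  rw [pow_three, mul_assoc, mul_assoc]

end OrbitsPrime

/-- If `g ^ p` acts trivially (`p` prime) then `p * #orbits = #X + (p - 1) * #Fix(g)`. -/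
theorem prime_mul_card_orbits {G X : Type*} [Group G] [MulAction G X] [Finite X] (g : G) (p : ℕ)
    (hp : p.Prime) (hg : ∀ x : X, g ^ p • x = x) :
    p * Nat.card (MulAction.orbitRel.Quotient (Subgroup.zpowers g) X)
      = Nat.card X + (p - 1) * Nat.card (MulAction.fixedBy X g) := by
  classical
  have : Fintype (MulAction.orbitRel.Quotient (Subgroup.zpowers g) X) := Fintype.ofFinite _
  have h3 : ∀ ω : MulAction.orbitRel.Quotient (Subgroup.zpowers g) X,
      p = Function.minimalPeriod (g • ·) ω.out
        + (p - 1) * (if ω.out ∈ MulAction.fixedBy X g then 1 else 0) := by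
    intro ω
    rw [OrbitsPrime.minimalPeriod_eq g p hp ω.out (hg _)]
    have := hp.one_lt
    split_ifs <;> omega
  calc p * Nat.card (MulAction.orbitRel.Quotient (Subgroup.zpowers g) X)
      = ∑ _ω : MulAction.orbitRel.Quotient (Subgroup.zpowers g) X, p := by
        rw [Finset.sum_const, Finset.card_univ, smul_eq_mul, Nat.card_eq_fintype_card, mul_comm]
    _ = ∑ ω : MulAction.orbitRel.Quotient (Subgroup.zpowers g) X,
          (Function.minimalPeriod (g • ·) ω.out
            + (p - 1) * (if ω.out ∈ MulAction.fixedBy X g then 1 else 0)) :=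
        Finset.sum_congr rfl fun ω _ => h3 ω
    _ = Nat.card X + (p - 1) * Nat.card (MulAction.fixedBy X g) := by
        rw [Finset.sum_add_distrib, ← Finset.mul_sum, ← OrbitsPrime.card_eq_sum_minimalPeriod,
          ← OrbitsPrime.card_fixedBy_eq_sum]

/-- `S ^ 2 = -1` acts trivially on the cosets. -/
theorem S_sq_smul (N : ℕ) (x : Cosets N) : S ^ 2 • x = x := by
  obtain ⟨g, rfl⟩ := cmk_surjective N x
  rw [smul_cmk, cmk_eq_cmk_iff, pow_two, mul_assoc, S_mul_apply_zero_zero, S_mul_apply_one_zero,
    S_mul_apply_one_zero, S_mul_apply_zero_zero]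
  apply OrbitsPrime.dvd_of_eq_zero
  ring

/-- `(S * T) ^ 3 = -1` acts trivially on the cosets. -/
theorem ST_cube_smul (N : ℕ) (x : Cosets N) : (S * T) ^ 3 • x = x := by
  obtain ⟨g, rfl⟩ := cmk_surjective N x
  rw [smul_cmk, cmk_eq_cmk_iff, OrbitsPrime.pow_three_mul]
  simp only [ST_mul_apply_zero_zero, ST_mul_apply_one_zero]
  apply OrbitsPrime.dvd_of_eq_zero
  ring

theorem two_mul_orbS (N : ℕ) [NeZero N] :
    2 * orbCard N S = cosetCard N + Nat.card (MulAction.fixedBy (Cosets N) S) := by
  have h := prime_mul_card_orbits (X := Cosets N) S 2 Nat.prime_two (S_sq_smul N)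
  rw [orbCard_eq, cosetCard]
  simpa using h

theorem three_mul_orbST (N : ℕ) [NeZero N] :
    3 * orbCard N (S * T)
      = cosetCard N + 2 * Nat.card (MulAction.fixedBy (Cosets N) (S * T)) := by
  have h := prime_mul_card_orbits (X := Cosets N) (S * T) 3 Nat.prime_three (ST_cube_smul N)
  rw [orbCard_eq, cosetCard]
  simpa using h

end Fermat.Agent.S24.Comb
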