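import Fermat.Agent.S24.Comb.Defs

/-!
# S24 / C7b: Scott's lemma, linear-algebra core.   (one worker; statement frozen)

`V` finite-dimensional over `ℚ`, `A₁ A₂ A₃ : V →ₗ V` with `A₃ ∘ A₂ ∘ A₁ = id`.  Put
`Kᵢ := ker (1 - Aᵢ)`, `Cᵢ := range (1 - Aᵢ)` (so `dim Cᵢ = n - dim Kᵢ`, `n = dim V`).
Assume `dim (K₁ ⊓ K₂ ⊓ K₃) ≤ 1` and `n ≤ dim (C₁ ⊔ C₂ ⊔ C₃) + 1`.
Then `dim K₁ + dim K₂ + dim K₃ ≤ n + 2`.

Proof.  `β : V → C₁ × C₂ × C₃`, `v ↦ ((1-A₁) v, (1-A₂) v, (1-A₃) v)` has kernel `K₁ ⊓ K₂ ⊓ K₃`, so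
`rank β ≥ n - 1`.  `δ : C₁ × C₂ × C₃ → V`, `(x₁, x₂, x₃) ↦ A₃ (A₂ x₁) + A₃ x₂ + x₃` satisfies
`δ (β v) = v - A₃ (A₂ (A₁ v)) = 0`, so `range β ≤ ker δ`.  Moreover `range δ ⊇ C₁ ⊔ C₂ ⊔ C₃`:
`x₃ = δ (0, 0, x₃)`, `x₂ = δ (0, x₂, (1-A₃) x₂)`, `x₁ = δ (x₁, (1-A₂) x₁, (1-A₃) x₁)`;
so `rank δ ≥ n - 1` and `dim ker δ = Σ dim Cᵢ - rank δ ≤ Σ dim Cᵢ - (n - 1)`.
Hence `n - 1 ≤ rank β ≤ dim ker δ ≤ 3 n - Σ dim Kᵢ - (n - 1)`.
(It may be convenient to work with `β : V → V × V × V`, `δ : V × V × V → V` and the submodule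
`W := C₁.prod (C₂.prod C₃)`; use `LinearMap.finrank_range_add_finrank_ker`,
`Submodule.finrank_mono`, `Submodule.finrank_map_le`, etc.)
-/

set_option autoImplicit false

noncomputable section

namespace Fermat.Agent.S24.Comb

namespace ScottLin

variable {V : Type*} [AddCommGroup V] [Module ℚ V]

/-- The map `β : V → C₁ × C₂ × C₃`, `v ↦ (B₁ v, B₂ v, B₃ v)`, where `Cᵢ = range Bᵢ`. -/
def beta (B₁ B₂ B₃ : V →ₗ[ℚ] V) :
    V →ₗ[ℚ] (LinearMap.range B₁ × LinearMap.range B₂ × LinearMap.range B₃) :=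
  LinearMap.prod B₁.rangeRestrict (LinearMap.prod B₂.rangeRestrict B₃.rangeRestrict)

/-- The map `δ : C₁ × C₂ × C₃ → V`, `(x₁, x₂, x₃) ↦ A₃ (A₂ x₁) + (A₃ x₂ + x₃)`. -/
def delta (A₂ A₃ B₁ B₂ B₃ : V →ₗ[ℚ] V) :
    (LinearMap.range B₁ × LinearMap.range B₂ × LinearMap.range B₃) →ₗ[ℚ] V :=
  LinearMap.coprod (A₃ ∘ₗ A₂ ∘ₗ (LinearMap.range B₁).subtype)
    (LinearMap.coprod (A₃ ∘ₗ (LinearMap.range B₂).subtype) (LinearMap.range B₃).subtype)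

theorem beta_apply (B₁ B₂ B₃ : V →ₗ[ℚ] V) (v : V) :
    beta B₁ B₂ B₃ v = (⟨B₁ v, LinearMap.mem_range_self B₁ v⟩,
      ⟨B₂ v, LinearMap.mem_range_self B₂ v⟩, ⟨B₃ v, LinearMap.mem_range_self B₃ v⟩) := rfl

theorem delta_apply (A₂ A₃ B₁ B₂ B₃ : V →ₗ[ℚ] V)
    (x : LinearMap.range B₁ × LinearMap.range B₂ × LinearMap.range B₃) :
    delta A₂ A₃ B₁ B₂ B₃ x = A₃ (A₂ (x.1 : V)) + (A₃ (x.2.1 : V) + (x.2.2 : V)) := rfl

/-- `ker β = K₁ ⊓ K₂ ⊓ K₃`. -/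
theorem ker_beta (B₁ B₂ B₃ : V →ₗ[ℚ] V) :
    LinearMap.ker (beta B₁ B₂ B₃) = LinearMap.ker B₁ ⊓ LinearMap.ker B₂ ⊓ LinearMap.ker B₃ := by
  ext v
  simp only [LinearMap.mem_ker, Submodule.mem_inf, beta_apply, Prod.mk_eq_zero,
    Submodule.mk_eq_zero, and_assoc]

/-- `δ (β v) = v - A₃ (A₂ (A₁ v)) = 0`. -/
theorem delta_comp_beta (A₁ A₂ A₃ : V →ₗ[ℚ] V) (h : A₃ ∘ₗ A₂ ∘ₗ A₁ = LinearMap.id) (v : V) :
    delta A₂ A₃ (LinearMap.id - A₁) (LinearMap.id - A₂) (LinearMap.id - A₃)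
      (beta (LinearMap.id - A₁) (LinearMap.id - A₂) (LinearMap.id - A₃) v) = 0 := by
  have h' : A₃ (A₂ (A₁ v)) = v := by
    have := congrArg (fun f : V →ₗ[ℚ] V => f v) h
    simpa using this
  rw [delta_apply, beta_apply]
  simp only [LinearMap.sub_apply, LinearMap.id_apply, map_sub, h']
  abel

/-- `range β ≤ ker δ`. -/
theorem range_beta_le_ker_delta (A₁ A₂ A₃ : V →ₗ[ℚ] V) (h : A₃ ∘ₗ A₂ ∘ₗ A₁ = LinearMap.id) :
    LinearMap.range (beta (LinearMap.id - A₁) (LinearMap.id - A₂) (LinearMap.id - A₃)) ≤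
      LinearMap.ker (delta A₂ A₃ (LinearMap.id - A₁) (LinearMap.id - A₂) (LinearMap.id - A₃)) := by
  rintro _ ⟨v, rfl⟩
  exact delta_comp_beta A₁ A₂ A₃ h v

/-- `C₁ ⊔ C₂ ⊔ C₃ ≤ range δ`. -/
theorem sup_le_range_delta (A₂ A₃ : V →ₗ[ℚ] V) (B₁ : V →ₗ[ℚ] V) :
    LinearMap.range B₁ ⊔ LinearMap.range (LinearMap.id - A₂) ⊔ LinearMap.range (LinearMap.id - A₃)
      ≤ LinearMap.range (delta A₂ A₃ B₁ (LinearMap.id - A₂) (LinearMap.id - A₃)) := by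
  refine sup_le (sup_le ?_ ?_) ?_
  · intro x hx
    refine ⟨(⟨x, hx⟩, ⟨(LinearMap.id - A₂ : V →ₗ[ℚ] V) x, LinearMap.mem_range_self _ x⟩,
      ⟨(LinearMap.id - A₃ : V →ₗ[ℚ] V) x, LinearMap.mem_range_self _ x⟩), ?_⟩
    rw [delta_apply]
    simp only [LinearMap.sub_apply, LinearMap.id_apply, map_sub]
    abel
  · intro x hx
    refine ⟨(0, ⟨x, hx⟩, ⟨(LinearMap.id - A₃ : V →ₗ[ℚ] V) x, LinearMap.mem_range_self _ x⟩), ?_⟩
    rw [delta_apply]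
    simp only [LinearMap.sub_apply, LinearMap.id_apply, map_zero, Submodule.coe_zero]
    abel
  · intro x hx
    refine ⟨(0, 0, ⟨x, hx⟩), ?_⟩
    rw [delta_apply]
    simp only [map_zero, Submodule.coe_zero, zero_add]

end ScottLin

/-- Linear-algebra core of Scott's lemma. -/
theorem scott_linear {V : Type*} [AddCommGroup V] [Module ℚ V] [FiniteDimensional ℚ V]
    (A₁ A₂ A₃ : V →ₗ[ℚ] V) (h : A₃ ∘ₗ A₂ ∘ₗ A₁ = LinearMap.id)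
    (hker : Module.finrank ℚ
        ↥(LinearMap.ker (LinearMap.id - A₁) ⊓ LinearMap.ker (LinearMap.id - A₂)
          ⊓ LinearMap.ker (LinearMap.id - A₃)) ≤ 1)
    (hran : Module.finrank ℚ V ≤ Module.finrank ℚ
        ↥(LinearMap.range (LinearMap.id - A₁) ⊔ LinearMap.range (LinearMap.id - A₂)
          ⊔ LinearMap.range (LinearMap.id - A₃)) + 1) :
    Module.finrank ℚ ↥(LinearMap.ker (LinearMap.id - A₁))
      + Module.finrank ℚ ↥(LinearMap.ker (LinearMap.id - A₂))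
      + Module.finrank ℚ ↥(LinearMap.ker (LinearMap.id - A₃)) ≤ Module.finrank ℚ V + 2 := by
  -- rank-nullity for the three maps `1 - Aᵢ`
  have r₁ := LinearMap.finrank_range_add_finrank_ker (LinearMap.id - A₁)
  have r₂ := LinearMap.finrank_range_add_finrank_ker (LinearMap.id - A₂)
  have r₃ := LinearMap.finrank_range_add_finrank_ker (LinearMap.id - A₃)
  -- rank-nullity for `β`
  have rβ := LinearMap.finrank_range_add_finrank_ker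
    (ScottLin.beta (LinearMap.id - A₁) (LinearMap.id - A₂) (LinearMap.id - A₃))
  rw [ScottLin.ker_beta] at rβ
  -- rank-nullity for `δ`
  have rδ := LinearMap.finrank_range_add_finrank_ker
    (ScottLin.delta A₂ A₃ (LinearMap.id - A₁) (LinearMap.id - A₂) (LinearMap.id - A₃))
  rw [Module.finrank_prod, Module.finrank_prod] at rδ
  -- `range β ≤ ker δ`
  have hβδ := Submodule.finrank_mono (ScottLin.range_beta_le_ker_delta A₁ A₂ A₃ h)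
  -- `C₁ ⊔ C₂ ⊔ C₃ ≤ range δ`
  have hδ := Submodule.finrank_mono (ScottLin.sup_le_range_delta A₂ A₃ (LinearMap.id - A₁))
  omega

end Fermat.Agent.S24.Comb
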