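import Fermat.Agent.S24.Comb.Invariants
import Fermat.Agent.S24.Comb.ScottLin

/-!
# S24 / C7c: Scott's lemma for three permutations with product one.
(one worker; statement frozen; uses `finrank_invSub` and `scott_linear` as black boxes)

`G` acts on the finite type `X`; `g₁ g₂ g₃ = 1`; the subgroup generated by the `gᵢ` is transitive
on `X`.  Then `#orbits⟨g₁⟩ + #orbits⟨g₂⟩ + #orbits⟨g₃⟩ ≤ #X + 2`.

Proof.  `V := X → ℚ`, `Aᵢ := LinearMap.funLeft ℚ ℚ (gᵢ • ·)`, i.e. `(Aᵢ v) x = v (gᵢ • x)`.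
* `A₃ ∘ A₂ ∘ A₁ = id` because `((A₃ (A₂ (A₁ v))) x = v (g₁ • g₂ • g₃ • x) = v x`.
* `ker (1 - Aᵢ) = invSub X gᵢ`, of dimension `#orbits⟨gᵢ⟩` (`finrank_invSub`).
* `K₁ ⊓ K₂ ⊓ K₃` consists of functions invariant under the closure of the `gᵢ`
  (`Subgroup.closure_induction`), hence constant by transitivity: dimension `≤ 1`
  (for `X` empty everything is trivial).
* `C := C₁ ⊔ C₂ ⊔ C₃` contains `e_y - e_{gᵢ⁻¹ • y}` (`= (1 - Aᵢ) e_y`, `e_y = Pi.single y 1`), hence
  `e_y - e_{h • y}` for every `h` in the closure, hence all `e_y - e_z`; so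
  `V = span {e_{x₀}} ⊔ C` and `dim V ≤ dim C + 1`.
* Apply `scott_linear` and `Module.finrank ℚ (X → ℚ) = Nat.card X`.
-/

set_option autoImplicit false

noncomputable section

namespace Fermat.Agent.S24.Comb.Scott

variable {G X : Type*} [Group G] [MulAction G X]

/-- The operator `(A g v) x = v (g • x)` on `X → ℚ`. -/
def A (g : G) : (X → ℚ) →ₗ[ℚ] (X → ℚ) := LinearMap.funLeft ℚ ℚ (fun x => g • x)

theorem A_apply (g : G) (v : X → ℚ) (x : X) : A g v x = v (g • x) := rfl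

/-- `A₃ ∘ A₂ ∘ A₁ = id` when `g₁ g₂ g₃ = 1`. -/
theorem A_comp (g₁ g₂ g₃ : G) (h123 : g₁ * g₂ * g₃ = 1) :
    (A g₃ : (X → ℚ) →ₗ[ℚ] (X → ℚ)) ∘ₗ A g₂ ∘ₗ A g₁ = LinearMap.id := by
  refine LinearMap.ext fun v => funext fun x => ?_
  rw [LinearMap.comp_apply, LinearMap.comp_apply, A_apply, A_apply, A_apply, LinearMap.id_apply,
    ← mul_smul, ← mul_smul, h123, one_smul]

/-- `ker (1 - A g)` is the space of `g`-invariant functions. -/
theorem ker_eq (g : G) :
    LinearMap.ker (LinearMap.id - (A g : (X → ℚ) →ₗ[ℚ] (X → ℚ))) = invSub X g := by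
  ext v
  rw [LinearMap.mem_ker, LinearMap.sub_apply, LinearMap.id_apply, sub_eq_zero, mem_invSub,
    funext_iff]
  constructor
  · intro h x
    exact (h x).symm
  · intro h x
    exact (h x).symm

/-- A function invariant under the three generators is invariant under their closure. -/
theorem inv_of_mem_closure (g₁ g₂ g₃ : G) (v : X → ℚ) (h1 : ∀ x, v (g₁ • x) = v x)
    (h2 : ∀ x, v (g₂ • x) = v x) (h3 : ∀ x, v (g₃ • x) = v x) (h : G)
    (hh : h ∈ Subgroup.closure ({g₁, g₂, g₃} : Set G)) : ∀ x, v (h • x) = v x := by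
  induction hh using Subgroup.closure_induction with
  | mem g hg =>
    rcases hg with rfl | rfl | rfl
    · exact h1
    · exact h2
    · exact h3
  | one => intro x; rw [one_smul]
  | mul a b _ _ ha hb => intro x; rw [mul_smul, ha, hb]
  | inv a _ ha =>
    intro x
    have h := ha (a⁻¹ • x)
    rw [smul_inv_smul] at h
    exact h.symm

/-- A function in the triple intersection of kernels is constant. -/
theorem const_of_mem (g₁ g₂ g₃ : G)
    (htrans : ∀ x y : X, ∃ h ∈ Subgroup.closure ({g₁, g₂, g₃} : Set G), h • x = y)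
    (v : X → ℚ)
    (hv : v ∈ LinearMap.ker (LinearMap.id - (A g₁ : (X → ℚ) →ₗ[ℚ] (X → ℚ)))
      ⊓ LinearMap.ker (LinearMap.id - (A g₂ : (X → ℚ) →ₗ[ℚ] (X → ℚ)))
      ⊓ LinearMap.ker (LinearMap.id - (A g₃ : (X → ℚ) →ₗ[ℚ] (X → ℚ)))) (x y : X) :
    v y = v x := by
  rw [ker_eq, ker_eq, ker_eq] at hv
  obtain ⟨⟨h1, h2⟩, h3⟩ := hv
  obtain ⟨h, hh, rfl⟩ := htrans x y
  exact inv_of_mem_closure g₁ g₂ g₃ v h1 h2 h3 h hh x

/-- The triple intersection of the kernels is contained in the line of constant functions. -/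
theorem inf_le_span (g₁ g₂ g₃ : G)
    (htrans : ∀ x y : X, ∃ h ∈ Subgroup.closure ({g₁, g₂, g₃} : Set G), h • x = y) :
    LinearMap.ker (LinearMap.id - (A g₁ : (X → ℚ) →ₗ[ℚ] (X → ℚ)))
      ⊓ LinearMap.ker (LinearMap.id - (A g₂ : (X → ℚ) →ₗ[ℚ] (X → ℚ)))
      ⊓ LinearMap.ker (LinearMap.id - (A g₃ : (X → ℚ) →ₗ[ℚ] (X → ℚ)))
      ≤ Submodule.span ℚ {(fun _ => 1 : X → ℚ)} := by
  intro v hv
  rw [Submodule.mem_span_singleton]
  rcases isEmpty_or_nonempty X with hX | ⟨⟨x₀⟩⟩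
  · exact ⟨0, funext fun x => (hX.false x).elim⟩
  · refine ⟨v x₀, funext fun x => ?_⟩
    rw [Pi.smul_apply, smul_eq_mul, mul_one]
    exact (const_of_mem g₁ g₂ g₃ htrans v hv x₀ x).symm

theorem finrank_span_singleton_le_one {V : Type*} [AddCommGroup V] [Module ℚ V] (w : V) :
    Module.finrank ℚ ↥(Submodule.span ℚ {w}) ≤ 1 := by
  classical
  have h := finrank_span_le_card (R := ℚ) ({w} : Set V)
  simpa using h

/-- Hypothesis `hker` of `scott_linear`. -/
theorem hker [Finite X] (g₁ g₂ g₃ : G)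
    (htrans : ∀ x y : X, ∃ h ∈ Subgroup.closure ({g₁, g₂, g₃} : Set G), h • x = y) :
    Module.finrank ℚ
        ↥(LinearMap.ker (LinearMap.id - (A g₁ : (X → ℚ) →ₗ[ℚ] (X → ℚ)))
          ⊓ LinearMap.ker (LinearMap.id - (A g₂ : (X → ℚ) →ₗ[ℚ] (X → ℚ)))
          ⊓ LinearMap.ker (LinearMap.id - (A g₃ : (X → ℚ) →ₗ[ℚ] (X → ℚ)))) ≤ 1 :=
  (Submodule.finrank_mono (inf_le_span g₁ g₂ g₃ htrans)).trans (finrank_span_singleton_le_one _)

/-- `A g e_y = e_{g⁻¹ • y}`. -/
theorem A_single [DecidableEq X] (g : G) (y : X) :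
    A g (Pi.single y (1 : ℚ)) = Pi.single (g⁻¹ • y) (1 : ℚ) := by
  funext x
  rw [A_apply, Pi.single_apply, Pi.single_apply]
  by_cases h : x = g⁻¹ • y
  · rw [if_pos h, if_pos (by rw [h, smul_inv_smul])]
  · rw [if_neg h, if_neg (fun h' => h (by rw [← h', inv_smul_smul]))]

/-- `e_y - e_{g⁻¹ • y}` lies in the range of `1 - A g`. -/
theorem single_sub_mem_range [DecidableEq X] (g : G) (y : X) :
    (Pi.single y (1 : ℚ) - Pi.single (g⁻¹ • y) (1 : ℚ) : X → ℚ)
      ∈ LinearMap.range (LinearMap.id - (A g : (X → ℚ) →ₗ[ℚ] (X → ℚ))) :=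
  ⟨Pi.single y 1, by rw [LinearMap.sub_apply, LinearMap.id_apply, A_single]⟩

/-- If a submodule contains all `e_y - e_{g⁻¹ • y}`, it contains all `e_y - e_{g • y}`. -/
theorem single_sub_mem_of_inv [DecidableEq X] (C : Submodule ℚ (X → ℚ)) (g : G)
    (hg : ∀ y : X, (Pi.single y (1 : ℚ) - Pi.single (g⁻¹ • y) (1 : ℚ) : X → ℚ) ∈ C) (y : X) :
    (Pi.single y (1 : ℚ) - Pi.single (g • y) (1 : ℚ) : X → ℚ) ∈ C := by
  have h := C.neg_mem (hg (g • y))
  rwa [inv_smul_smul, neg_sub] at h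

/-- Closure induction for the differences of basis vectors. -/
theorem single_sub_mem_of_closure [DecidableEq X] (C : Submodule ℚ (X → ℚ)) (g₁ g₂ g₃ : G)
    (h1 : ∀ y : X, (Pi.single y (1 : ℚ) - Pi.single (g₁ • y) (1 : ℚ) : X → ℚ) ∈ C)
    (h2 : ∀ y : X, (Pi.single y (1 : ℚ) - Pi.single (g₂ • y) (1 : ℚ) : X → ℚ) ∈ C)
    (h3 : ∀ y : X, (Pi.single y (1 : ℚ) - Pi.single (g₃ • y) (1 : ℚ) : X → ℚ) ∈ C)
    (h : G) (hh : h ∈ Subgroup.closure ({g₁, g₂, g₃} : Set G)) :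
    ∀ y : X, (Pi.single y (1 : ℚ) - Pi.single (h • y) (1 : ℚ) : X → ℚ) ∈ C := by
  induction hh using Subgroup.closure_induction with
  | mem g hg =>
    rcases hg with rfl | rfl | rfl
    · exact h1
    · exact h2
    · exact h3
  | one => intro y; rw [one_smul, sub_self]; exact C.zero_mem
  | mul a b _ _ ha hb =>
    intro y
    have h := C.add_mem (hb y) (ha (b • y))
    rwa [sub_add_sub_cancel, ← mul_smul] at h
  | inv a _ ha =>
    intro y
    have h := C.neg_mem (ha (a⁻¹ • y))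
    rwa [smul_inv_smul, neg_sub] at h

/-- The sum of the three ranges contains all differences of basis vectors. -/
theorem single_sub_mem_sup [DecidableEq X] (g₁ g₂ g₃ : G)
    (htrans : ∀ x y : X, ∃ h ∈ Subgroup.closure ({g₁, g₂, g₃} : Set G), h • x = y) (y z : X) :
    (Pi.single y (1 : ℚ) - Pi.single z (1 : ℚ) : X → ℚ)
      ∈ LinearMap.range (LinearMap.id - (A g₁ : (X → ℚ) →ₗ[ℚ] (X → ℚ)))
        ⊔ LinearMap.range (LinearMap.id - (A g₂ : (X → ℚ) →ₗ[ℚ] (X → ℚ)))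
        ⊔ LinearMap.range (LinearMap.id - (A g₃ : (X → ℚ) →ₗ[ℚ] (X → ℚ))) := by
  obtain ⟨h, hh, rfl⟩ := htrans y z
  refine single_sub_mem_of_closure _ g₁ g₂ g₃ ?_ ?_ ?_ h hh y
  · exact single_sub_mem_of_inv _ g₁ fun y =>
      Submodule.mem_sup_left (Submodule.mem_sup_left (single_sub_mem_range g₁ y))
  · exact single_sub_mem_of_inv _ g₂ fun y =>
      Submodule.mem_sup_left (Submodule.mem_sup_right (single_sub_mem_range g₂ y))
  · exact single_sub_mem_of_inv _ g₃ fun y =>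
      Submodule.mem_sup_right (single_sub_mem_range g₃ y)

/-- A submodule containing all differences of basis vectors has codimension at most one. -/
theorem finrank_le_of_single_sub_mem [Fintype X] [DecidableEq X] (C : Submodule ℚ (X → ℚ))
    (hC : ∀ y z : X, (Pi.single y (1 : ℚ) - Pi.single z (1 : ℚ) : X → ℚ) ∈ C) :
    Module.finrank ℚ (X → ℚ) ≤ Module.finrank ℚ ↥C + 1 := by
  rcases isEmpty_or_nonempty X with hX | ⟨⟨x₀⟩⟩
  · rw [Module.finrank_fintype_fun_eq_card, Fintype.card_eq_zero]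
    exact Nat.zero_le _
  · have htop : (⊤ : Submodule ℚ (X → ℚ))
        ≤ C ⊔ Submodule.span ℚ {(Pi.single x₀ (1 : ℚ) : X → ℚ)} := by
      rw [← (Pi.basisFun ℚ X).span_eq, Submodule.span_le]
      rintro _ ⟨y, rfl⟩
      rw [Pi.basisFun_apply]
      have h := Submodule.add_mem_sup (hC y x₀)
        (Submodule.mem_span_singleton_self (R := ℚ) (Pi.single x₀ (1 : ℚ) : X → ℚ))
      rwa [sub_add_cancel] at h
    calc Module.finrank ℚ (X → ℚ)
        = Module.finrank ℚ ↥(⊤ : Submodule ℚ (X → ℚ)) := (finrank_top ℚ (X → ℚ)).symm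
      _ ≤ Module.finrank ℚ ↥(C ⊔ Submodule.span ℚ {(Pi.single x₀ (1 : ℚ) : X → ℚ)}) :=
        Submodule.finrank_mono htop
      _ ≤ Module.finrank ℚ ↥C
          + Module.finrank ℚ ↥(Submodule.span ℚ {(Pi.single x₀ (1 : ℚ) : X → ℚ)}) :=
        Submodule.finrank_add_le_finrank_add_finrank _ _
      _ ≤ Module.finrank ℚ ↥C + 1 := Nat.add_le_add_left (finrank_span_singleton_le_one _) _

/-- Scott's lemma, assembled from `scott_linear` and `finrank_invSub`. -/
theorem scott_aux [Finite X] (g₁ g₂ g₃ : G) (h123 : g₁ * g₂ * g₃ = 1)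
    (htrans : ∀ x y : X, ∃ h ∈ Subgroup.closure ({g₁, g₂, g₃} : Set G), h • x = y) :
    Nat.card (MulAction.orbitRel.Quotient (Subgroup.zpowers g₁) X)
      + Nat.card (MulAction.orbitRel.Quotient (Subgroup.zpowers g₂) X)
      + Nat.card (MulAction.orbitRel.Quotient (Subgroup.zpowers g₃) X) ≤ Nat.card X + 2 := by
  classical
  have : Fintype X := Fintype.ofFinite X
  have key := scott_linear (A g₁ : (X → ℚ) →ₗ[ℚ] (X → ℚ)) (A g₂) (A g₃) (A_comp g₁ g₂ g₃ h123)
    (hker g₁ g₂ g₃ htrans)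
    (finrank_le_of_single_sub_mem _ (single_sub_mem_sup g₁ g₂ g₃ htrans))
  rw [ker_eq, ker_eq, ker_eq, finrank_invSub, finrank_invSub, finrank_invSub,
    Module.finrank_fintype_fun_eq_card, ← Nat.card_eq_fintype_card] at key
  exact key

end Fermat.Agent.S24.Comb.Scott

namespace Fermat.Agent.S24.Comb

/-- **Scott's lemma** (Ree's inequality) for three group elements with product one generating a
transitive group. -/
theorem scott {G X : Type*} [Group G] [MulAction G X] [Finite X] (g₁ g₂ g₃ : G)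
    (h123 : g₁ * g₂ * g₃ = 1)
    (htrans : ∀ x y : X, ∃ h ∈ Subgroup.closure ({g₁, g₂, g₃} : Set G), h • x = y) :
    Nat.card (MulAction.orbitRel.Quotient (Subgroup.zpowers g₁) X)
      + Nat.card (MulAction.orbitRel.Quotient (Subgroup.zpowers g₂) X)
      + Nat.card (MulAction.orbitRel.Quotient (Subgroup.zpowers g₃) X) ≤ Nat.card X + 2 := by
  exact Fermat.Agent.S24.Comb.Scott.scott_aux g₁ g₂ g₃ h123 htrans

end Fermat.Agent.S24.Comb
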