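import Fermat.Agent.S24.Comb.Defs

/-!
# S24 / C6: the sign of a permutation and the number of its cycles.
(one worker; statement frozen)

For a group `G` acting on a finite type `X` and `g : G`, the permutation `MulAction.toPerm g`
has sign `(-1) ^ (#X - #orbits of ⟨g⟩)`; we state it with `+` to avoid truncated subtraction.

Suggested proof: `σ := MulAction.toPerm g`.  Mathlib: `Equiv.Perm.sign_of_cycleType`
(`sign σ = (-1) ^ (σ.cycleType.sum + Multiset.card σ.cycleType)`), `Equiv.Perm.sum_cycleType`
(`= #σ.support`), `Equiv.Perm.cycleType_def` (`cycleType = cycleFactorsFinset.1.map (card ∘ support)`).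
It remains to show `#orbits = Multiset.card σ.cycleType + (Fintype.card X - #σ.support)`:
the orbits of `Subgroup.zpowers g` are the classes of `Equiv.Perm.SameCycle σ`; an orbit is either
a fixed point (`x ∉ σ.support`) or the support of exactly one cycle factor
(`Equiv.Perm.cycleOf`, `Equiv.Perm.cycleOf_mem_cycleFactorsFinset_iff`,
`Equiv.Perm.SameCycle.cycleOf_eq`, `Equiv.Perm.mem_support_cycleOf_iff`).
Any other proof is fine (e.g. induction with `Equiv.Perm.cycle_induction_on`).
-/

set_option autoImplicit false

noncomputable section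

namespace Fermat.Agent.S24.Comb

namespace SignOrbits

open Equiv Equiv.Perm

variable {G X : Type*} [Group G] [MulAction G X] [Fintype X] [DecidableEq X]

theorem toPerm_zpow_apply (g : G) (k : ℤ) (x : X) :
    ((MulAction.toPerm g : Equiv.Perm X) ^ k) x = g ^ k • x := by
  have h : (MulAction.toPerm g : Equiv.Perm X) ^ k = MulAction.toPerm (g ^ k) :=
    (map_zpow (MulAction.toPermHom G X) g k).symm
  rw [h]
  rfl

theorem orbit_iff_sameCycle (g : G) (x y : X) :
    (Quotient.mk'' x : MulAction.orbitRel.Quotient (Subgroup.zpowers g) X) = Quotient.mk'' y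
      ↔ (MulAction.toPerm g : Equiv.Perm X).SameCycle x y := by
  rw [Quotient.eq'']
  change x ∈ MulAction.orbit (Subgroup.zpowers g) y ↔ _
  rw [MulAction.mem_orbit_iff, Equiv.Perm.sameCycle_comm]
  constructor
  · rintro ⟨⟨_, k, rfl⟩, hk⟩
    exact ⟨k, by rw [toPerm_zpow_apply]; exact hk⟩
  · rintro ⟨k, hk⟩
    exact ⟨⟨g ^ k, k, rfl⟩, by rw [toPerm_zpow_apply] at hk; exact hk⟩

/-- The key separating cycles. -/
def key (σ : Equiv.Perm X) (x : X) : Equiv.Perm X ⊕ X :=
  if σ x = x then Sum.inr x else Sum.inl (σ.cycleOf x)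

theorem sameCycle_iff_key (σ : Equiv.Perm X) (x y : X) :
    σ.SameCycle x y ↔ key σ x = key σ y := by
  unfold key
  constructor
  · intro h
    by_cases hx : σ x = x
    · have hy : σ y = y := h.apply_eq_self_iff.mp hx
      have hxy : x = y := by
        obtain ⟨i, hi⟩ := h
        rw [← hi]
        exact ((Equiv.Perm.zpow_apply_eq_self_of_apply_eq_self hx i)).symm
      simp [hy, hxy]
    · have hy : ¬ σ y = y := fun hy => hx (h.apply_eq_self_iff.mpr hy)
      simp [hx, hy, h.cycleOf_eq]
  · intro h
    by_cases hx : σ x = x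
    · by_cases hy : σ y = y
      · simp only [hx, hy, if_true] at h
        rw [Sum.inr.injEq] at h
        rw [h]
      · simp [hx, hy] at h
    · by_cases hy : σ y = y
      · simp [hx, hy] at h
      · simp only [hx, hy, if_false, Sum.inl.injEq] at h
        have hy' : y ∈ (σ.cycleOf y).support := by
          rw [Equiv.Perm.mem_support_cycleOf_iff]
          exact ⟨Equiv.Perm.SameCycle.refl _ _, Equiv.Perm.mem_support.mpr hy⟩
        rw [← h, Equiv.Perm.mem_support_cycleOf_iff] at hy'
        exact hy'.1

theorem range_key (σ : Equiv.Perm X) :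
    Set.range (key σ) = Sum.inl '' (σ.cycleFactorsFinset : Set (Equiv.Perm X))
      ∪ Sum.inr '' {x : X | σ x = x} := by
  ext z
  constructor
  · rintro ⟨x, rfl⟩
    unfold key
    by_cases hx : σ x = x
    · right
      simp [hx]
    · left
      simp only [hx, if_false]
      exact ⟨_, Finset.mem_coe.mpr
        (Equiv.Perm.cycleOf_mem_cycleFactorsFinset_iff.mpr (Equiv.Perm.mem_support.mpr hx)), rfl⟩
  · rintro (⟨c, hc, rfl⟩ | ⟨x, hx, rfl⟩)
    · have hc' : c ∈ σ.cycleFactorsFinset := Finset.mem_coe.mp hc
      have hcyc : c.IsCycle := (Equiv.Perm.mem_cycleFactorsFinset_iff.mp hc').1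
      obtain ⟨a, ha⟩ := hcyc.nonempty_support
      have hca : c = σ.cycleOf a := Equiv.Perm.cycle_is_cycleOf ha hc'
      have haσ : a ∈ σ.support := Equiv.Perm.mem_cycleFactorsFinset_support_le hc' ha
      refine ⟨a, ?_⟩
      unfold key
      rw [if_neg (Equiv.Perm.mem_support.mp haσ), hca]
    · exact ⟨x, by unfold key; rw [if_pos (show σ x = x from hx)]⟩

theorem card_orbits (g : G) :
    Nat.card (MulAction.orbitRel.Quotient (Subgroup.zpowers g) X)
      = (MulAction.toPerm g : Equiv.Perm X).cycleFactorsFinset.card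
        + (Fintype.card X - (MulAction.toPerm g : Equiv.Perm X).support.card) := by
  set σ : Equiv.Perm X := MulAction.toPerm g with hσ
  have h1 := card_eq_card_range (A := X)
    (Q := MulAction.orbitRel.Quotient (Subgroup.zpowers g) X)
    (fun x => Quotient.mk'' x) Quotient.mk''_surjective (key σ)
    (fun x y => by rw [orbit_iff_sameCycle, sameCycle_iff_key])
  rw [h1, range_key, Nat.card_coe_set_eq, Set.ncard_union_eq, Set.ncard_image_of_injective _ Sum.inl_injective,
    Set.ncard_image_of_injective _ Sum.inr_injective, Set.ncard_coe_finset]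
  · congr 1
    have h2 : {x : X | σ x = x} = ((Finset.univ.filter fun x => σ x = x : Finset X) : Set X) := by
      ext x; simp
    rw [h2, Set.ncard_coe_finset]
    have h3 : σ.support = Finset.univ.filter fun x => ¬ σ x = x := by
      ext x; simp
    have h4 := Finset.card_filter_add_card_filter_not (s := (Finset.univ : Finset X))
      (fun x => σ x = x)
    rw [h3, ← Finset.card_univ (α := X)]
    omega
  · rw [Set.disjoint_left]
    rintro z ⟨c, _, rfl⟩ ⟨x, _, h⟩
    exact absurd h (by simp)

end SignOrbits

open SignOrbits in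
/-- `sign (toPerm g) = (-1) ^ (#X + #orbits of ⟨g⟩)`. -/
theorem sign_toPerm_eq {G X : Type*} [Group G] [MulAction G X] [Fintype X] [DecidableEq X]
    (g : G) :
    Equiv.Perm.sign (MulAction.toPerm g : Equiv.Perm X)
      = (-1 : ℤˣ) ^ (Fintype.card X
          + Nat.card (MulAction.orbitRel.Quotient (Subgroup.zpowers g) X)) := by
  rw [card_orbits, Equiv.Perm.sign_of_cycleType, Equiv.Perm.sum_cycleType,
    Equiv.Perm.cycleType_def]
  set σ : Equiv.Perm X := MulAction.toPerm g
  have hle : σ.support.card ≤ Fintype.card X := Finset.card_le_univ _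
  have hcard : Multiset.card (Multiset.map (Finset.card ∘ Equiv.Perm.support) σ.cycleFactorsFinset.val)
      = σ.cycleFactorsFinset.card := by
    rw [Multiset.card_map]; rfl
  rw [hcard]
  have e : Fintype.card X + (σ.cycleFactorsFinset.card + (Fintype.card X - σ.support.card))
      = (σ.support.card + σ.cycleFactorsFinset.card) + 2 * (Fintype.card X - σ.support.card) := by
    omega
  rw [e, pow_add _ (σ.support.card + σ.cycleFactorsFinset.card), pow_mul]
  simp


end Fermat.Agent.S24.Comb
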