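import Fermat.Agent.S24.Comb.Index
import Fermat.Agent.S24.Comb.FixS
import Fermat.Agent.S24.Comb.FixST
import Fermat.Agent.S24.Comb.OrbitsPrime
import Fermat.Agent.S24.Comb.SignOrbits
import Fermat.Agent.S24.Comb.Scott
import Fermat.Agent.S24.Comb.CuspCount

/-!
# S24 / C8: parity, non-negativity and the genus as a natural number (assembly; owner: helper20).
-/

set_option autoImplicit false

noncomputable section

namespace Fermat.Agent.S24.Comb

open ModularCurve
open scoped MatrixGroups
open ModularGroup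

/-- Scott's inequality for the three generators `S * T`, `T⁻¹`, `S⁻¹` (product one). -/
theorem orb_sum_le (N : ℕ) [NeZero N] :
    orbCard N (S * T) + orbCard N T + orbCard N S ≤ cosetCard N + 2 := by
  have htop : Subgroup.closure ({S * T, T⁻¹, S⁻¹} : Set SL(2, ℤ)) = ⊤ := by
    rw [eq_top_iff, ← SpecialLinearGroup.SL2Z_generators, Subgroup.closure_le]
    have hS : S ∈ Subgroup.closure ({S * T, T⁻¹, S⁻¹} : Set SL(2, ℤ)) := by
      have h := Subgroup.inv_mem _
        (Subgroup.subset_closure (show S⁻¹ ∈ ({S * T, T⁻¹, S⁻¹} : Set SL(2, ℤ)) by simp))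
      simpa using h
    have hT : T ∈ Subgroup.closure ({S * T, T⁻¹, S⁻¹} : Set SL(2, ℤ)) := by
      have h := Subgroup.inv_mem _
        (Subgroup.subset_closure (show T⁻¹ ∈ ({S * T, T⁻¹, S⁻¹} : Set SL(2, ℤ)) by simp))
      simpa using h
    rintro x (rfl | rfl)
    · exact hS
    · exact hT
  have h := scott (X := Cosets N) (S * T) T⁻¹ S⁻¹ (by group) (fun x y => by
    obtain ⟨h, hh⟩ := exists_smul_eq N x y
    exact ⟨h, htop ▸ Subgroup.mem_top h, hh⟩)
  rw [Subgroup.zpowers_inv, Subgroup.zpowers_inv] at h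
  rw [orbCard_eq, orbCard_eq, orbCard_eq, cosetCard]
  exact h

/-- Parity: `ψ + c∞ + r₂ + r₃` is even (signs of the permutations `T = S⁻¹ * (S * T)`). -/
theorem orb_parity (N : ℕ) [NeZero N] :
    Even (cosetCard N + orbCard N T + (cosetCard N + orbCard N S)
      + (cosetCard N + orbCard N (S * T))) := by
  classical
  haveI : Fintype (Cosets N) := Fintype.ofFinite _
  have hT := sign_toPerm_eq (X := Cosets N) T
  have hS := sign_toPerm_eq (X := Cosets N) S
  have hST := sign_toPerm_eq (X := Cosets N) (S * T)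
  have hmul : (MulAction.toPerm T : Equiv.Perm (Cosets N))
      = (MulAction.toPerm S)⁻¹ * MulAction.toPerm (S * T) := by
    ext x
    simp [mul_smul]
  rw [hmul, map_mul, map_inv, hS, hST, Int.units_inv_eq_self, ← pow_add] at hT
  rw [← Nat.card_eq_fintype_card] at hT
  have h2 : (-1 : ℤˣ) ^ (cosetCard N + orbCard N T + (cosetCard N + orbCard N S)
      + (cosetCard N + orbCard N (S * T))) = 1 := by
    rw [orbCard_eq, orbCard_eq, orbCard_eq, cosetCard, add_assoc, pow_add, ← hT, ← pow_add,
      ← two_mul, pow_mul]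
    simp
  by_contra hodd
  rw [Nat.not_even_iff_odd] at hodd
  rw [hodd.neg_one_pow] at h2
  exact absurd h2 (by decide)

/-- The genus formula is a natural number `g`, and `2g - 2` is the Riemann–Hurwitz count. -/
theorem genus_nat (N : ℕ) [NeZero N] :
    ∃ g : ℕ, (g : ℚ) = genusFormula N ∧
      2 * (g : ℤ) - 2 =
        ((cosetCard N : ℤ) - orbCard N (ModularGroup.S * ModularGroup.T))
          + ((cosetCard N : ℤ) - orbCard N ModularGroup.S)
          - cosetCard N - orbCard N ModularGroup.T := by
  have h2 : 2 * orbCard N S = cosetCard N + nuTwo N := by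
    rw [two_mul_orbS, fixS_card]
  have h3 : 3 * orbCard N (S * T) = cosetCard N + 2 * nuThree N := by
    rw [three_mul_orbST, fixST_card]
  have hc : orbCard N T = cuspCount N := orbT N
  have hn : cosetCard N = dedekindPsi N := index_eq N
  have hle := orb_sum_le N
  obtain ⟨m, hm⟩ := orb_parity N
  obtain ⟨g, hg⟩ : ∃ g : ℕ, cosetCard N + 2 = orbCard N S + orbCard N (S * T) + orbCard N T
      + 2 * g := ⟨(cosetCard N + 2 - (orbCard N S + orbCard N (S * T) + orbCard N T)) / 2, by omega⟩
  refine ⟨g, ?_, by omega⟩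
  have h2' : (2 : ℚ) * orbCard N S = cosetCard N + nuTwo N := by exact_mod_cast h2
  have h3' : (3 : ℚ) * orbCard N (S * T) = cosetCard N + 2 * nuThree N := by exact_mod_cast h3
  have hg' : (cosetCard N : ℚ) + 2 = orbCard N S + orbCard N (S * T) + orbCard N T + 2 * g := by
    exact_mod_cast hg
  rw [genusFormula, ← hn, ← hc]
  linarith

end Fermat.Agent.S24.Comb
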