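import Fermat.Agent.S24.Comb.Defs

/-!
# S24 / C0a: lifting primitive pairs mod `N` to first columns of `SL(2, ℤ)`.
(one worker; statements frozen)

Math for `exists_col_mod`: let `a₀ c₀ : ℤ` be lifts of `a c` (`ZMod.intCast_zmod_cast` /
`ZMod.intCast_cast`, `ZMod.intCast_surjective`).  `IsCoprime a c` in `ZMod N` gives
`u * a₀ + v * c₀ ≡ 1 [ZMOD N]`, so `Int.gcd (Int.gcd a₀ c₀) N = 1`.  It suffices to find `t : ℤ`
with `IsCoprime (a₀ + t * N) c₀'` for a suitable lift `c₀'`; standard trick: first make `c₀ ≠ 0`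
(replace `c₀` by `c₀ + N` if necessary), then take `t :=` the product of the primes dividing `c₀`
but not `a₀`: for a prime `q ∣ c₀`: if `q ∣ a₀` then `q ∤ N` (primitivity) and `q ∤ t`, so
`q ∤ a₀ + t * N`; if `q ∤ a₀` then `q ∣ t` and `q ∤ a₀ + t * N`.
(Compare the proof of `ZMod.unitsMap_surjective` in `Mathlib/Data/ZMod/Units.lean`, which
contains exactly this kind of argument; `exists_add_mul_isCoprime` below is the clean form:
apply it with the roles `(x, y, m) := (a₀, N', c₀)` where `gcd(a₀, N') ...` as convenient.)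
Then `exists_col` (in `Defs.lean`) gives the matrix.
-/

set_option autoImplicit false

noncomputable section

namespace Fermat.Agent.S24.Comb

open scoped MatrixGroups

namespace Lift

/-- The set of primes dividing `m` but not `x`. -/
def badPrimes (x m : ℤ) : Finset ℕ := by
  classical
  exact m.natAbs.primeFactors.filter (fun p => ¬ (p : ℤ) ∣ x)

theorem mem_badPrimes {x m : ℤ} {p : ℕ} :
    p ∈ badPrimes x m ↔ (p.Prime ∧ p ∣ m.natAbs ∧ m.natAbs ≠ 0) ∧ ¬ (p : ℤ) ∣ x := by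
  classical
  unfold badPrimes
  rw [Finset.mem_filter, Nat.mem_primeFactors]

/-- A prime dividing `m ≠ 0` but not `x` divides the product of the bad primes. -/
theorem dvd_prod_badPrimes {x m : ℤ} (hm : m ≠ 0) {p : ℕ} (pp : p.Prime) (hpm : (p : ℤ) ∣ m)
    (hpx : ¬ (p : ℤ) ∣ x) : (p : ℤ) ∣ (((badPrimes x m).prod id : ℕ) : ℤ) := by
  have pps : p ∈ badPrimes x m :=
    mem_badPrimes.mpr ⟨⟨pp, Int.natCast_dvd.mp hpm, Int.natAbs_ne_zero.mpr hm⟩, hpx⟩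
  exact Int.natCast_dvd_natCast.mpr (Finset.dvd_prod_of_mem id pps)

/-- A prime dividing `x` does not divide the product of the bad primes. -/
theorem not_dvd_prod_badPrimes {x m : ℤ} {p : ℕ} (pp : p.Prime) (hpx : (p : ℤ) ∣ x) :
    ¬ (p : ℤ) ∣ (((badPrimes x m).prod id : ℕ) : ℤ) := by
  intro h4
  rw [Int.natCast_dvd_natCast] at h4
  obtain ⟨q, hq, hq'⟩ := (pp.prime.dvd_finsetProd_iff id).mp h4
  rw [mem_badPrimes] at hq
  have hpq : p = q := (Nat.prime_dvd_prime_iff_eq pp hq.1.1).mp hq'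
  subst hpq
  exact hq.2 hpx

end Lift

/-- If `gcd(x, y, m) = 1` and `m ≠ 0` then some `x + t * y` is coprime to `m`. -/
theorem exists_add_mul_isCoprime (x y m : ℤ) (hm : m ≠ 0)
    (h : ∀ q : ℕ, q.Prime → (q : ℤ) ∣ x → (q : ℤ) ∣ y → ¬ (q : ℤ) ∣ m) :
    ∃ t : ℤ, IsCoprime (x + t * y) m := by
  refine ⟨(((Lift.badPrimes x m).prod id : ℕ) : ℤ), ?_⟩
  rw [Int.isCoprime_iff_gcd_eq_one]
  by_contra hne
  obtain ⟨p, pp, hp⟩ := Nat.exists_prime_and_dvd hne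
  have hp1 : (p : ℤ) ∣ x + (((Lift.badPrimes x m).prod id : ℕ) : ℤ) * y :=
    (Int.natCast_dvd_natCast.mpr hp).trans (Int.gcd_dvd_left _ _)
  have hp2 : (p : ℤ) ∣ m := (Int.natCast_dvd_natCast.mpr hp).trans (Int.gcd_dvd_right _ _)
  by_cases hpx : (p : ℤ) ∣ x
  · have h3 : (p : ℤ) ∣ (((Lift.badPrimes x m).prod id : ℕ) : ℤ) * y :=
      (dvd_add_right hpx).mp hp1
    rcases (Nat.prime_iff_prime_int.mp pp).dvd_or_dvd h3 with h4 | h4
    · exact Lift.not_dvd_prod_badPrimes pp hpx h4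
    · exact h p pp hpx h4 hp2
  · have h5 : (p : ℤ) ∣ (((Lift.badPrimes x m).prod id : ℕ) : ℤ) * y :=
      Dvd.dvd.mul_right (Lift.dvd_prod_badPrimes hm pp hp2 hpx) y
    exact hpx ((dvd_add_left h5).mp hp1)

namespace Lift

/-- Every element of `ZMod N` (`N ≠ 0`) has a nonzero integer lift. -/
theorem exists_ne_zero_lift (N : ℕ) [NeZero N] (c : ZMod N) :
    ∃ c₀ : ℤ, c₀ ≠ 0 ∧ ((c₀ : ℤ) : ZMod N) = c := by
  obtain ⟨c₁, rfl⟩ := ZMod.intCast_surjective c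
  by_cases hc : c₁ = 0
  · refine ⟨(N : ℤ), Int.natCast_ne_zero.mpr (NeZero.ne N), ?_⟩
    rw [hc, Int.cast_natCast, ZMod.natCast_self, Int.cast_zero]
  · exact ⟨c₁, hc, rfl⟩

/-- If `u₀ * a₀ + v₀ * c₀ ≡ 1 mod N` then no prime divides `a₀`, `N` and `c₀`. -/
theorem no_common_prime (N : ℕ) (a₀ c₀ u₀ v₀ : ℤ) (hN : (N : ℤ) ∣ u₀ * a₀ + v₀ * c₀ - 1)
    (q : ℕ) (hq : q.Prime) (hqa : (q : ℤ) ∣ a₀) (hqN : (q : ℤ) ∣ (N : ℤ)) : ¬ (q : ℤ) ∣ c₀ := by
  intro hqc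
  have h1 : (q : ℤ) ∣ u₀ * a₀ + v₀ * c₀ - 1 := hqN.trans hN
  have h2 : (q : ℤ) ∣ u₀ * a₀ + v₀ * c₀ := dvd_add (hqa.mul_left _) (hqc.mul_left _)
  have h3 : (q : ℤ) ∣ ((1 : ℕ) : ℤ) := by
    have h := dvd_sub h2 h1
    rwa [sub_sub_cancel] at h
  have h4 : q ∣ 1 := Int.natCast_dvd_natCast.mp h3
  exact hq.one_lt.ne' (Nat.dvd_one.mp h4)

end Lift

/-- Every primitive pair mod `N` is the reduction of the first column of a matrix in
`SL(2, ℤ)`. -/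
theorem exists_col_mod (N : ℕ) [NeZero N] (a c : ZMod N) (h : IsCoprime a c) :
    ∃ g : SL(2, ℤ), ((g 0 0 : ℤ) : ZMod N) = a ∧ ((g 1 0 : ℤ) : ZMod N) = c := by
  obtain ⟨u, v, huv⟩ := h
  obtain ⟨a₀, rfl⟩ := ZMod.intCast_surjective a
  obtain ⟨u₀, rfl⟩ := ZMod.intCast_surjective u
  obtain ⟨v₀, rfl⟩ := ZMod.intCast_surjective v
  obtain ⟨c₀, hc₀, rfl⟩ := Lift.exists_ne_zero_lift N c
  have hN : (N : ℤ) ∣ u₀ * a₀ + v₀ * c₀ - 1 := by
    rw [← ZMod.intCast_zmod_eq_zero_iff_dvd, Int.cast_sub, Int.cast_add, Int.cast_mul,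
      Int.cast_mul, Int.cast_one, huv, sub_self]
  obtain ⟨t, ht⟩ := exists_add_mul_isCoprime a₀ (N : ℤ) c₀ hc₀
    (Lift.no_common_prime N a₀ c₀ u₀ v₀ hN)
  obtain ⟨g, hg0, hg1⟩ := exists_col ht
  refine ⟨g, ?_, ?_⟩
  · rw [hg0, Int.cast_add, Int.cast_mul, Int.cast_natCast, ZMod.natCast_self, mul_zero, add_zero]
  · rw [hg1]

end Fermat.Agent.S24.Comb
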