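import Fermat.Agent.S24.Comb.PrimDefs
import Fermat.Agent.S24.Comb.Lift

/-!
# S24 / C0b: `#cosets * φ(N) = #primitive pairs mod N`.
(one worker; statement frozen; uses `exists_col_mod` from `Lift.lean` as a black box)

Math.  `X := {p : ZMod N × ZMod N // IsCoprime p.1 p.2}`, `col g := ((g 0 0 : ZMod N), (g 1 0 : ZMod N)) ∈ X`
(`isCoprime_col g` mapped by `Int.castRingHom (ZMod N)`).  `col` is surjective (`exists_col_mod`).
`cmk N g = cmk N g'` iff `a * c' = c * a'` in `ZMod N` (`cmk_eq_cmk_iff'`) iff `col g' = u • col g`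
for a unit `u : (ZMod N)ˣ`  [⇐ clear; ⇒: with integers `a d - b c = 1` put `λ := a' d - b c'`; then
`λ a = a'`, `λ c = c'` mod `N`; symmetric `μ` with `μ λ = 1`, because a scalar fixing a primitive
pair is `1`: `(λ μ - 1) a = 0 = (λ μ - 1) c` and `u a + v c = 1`].
The scaling action of `(ZMod N)ˣ` on `X` is free (same reason).  Hence, choosing a representative
matrix for each coset (`Quotient.out` / `Function.surjInv (cmk_surjective N)`),
`(x, u) ↦ u • col (rep x)` is a bijection `Cosets N × (ZMod N)ˣ ≃ X`;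
`Nat.card_prod`, `ZMod.card_units_eq_totient` (`Nat.card_eq_fintype_card`).
-/

set_option autoImplicit false

noncomputable section

namespace Fermat.Agent.S24.Comb

open scoped MatrixGroups

namespace CosetPrim

/-! ### Commutative algebra of primitive pairs -/

/-- A scalar fixing both entries of a primitive pair is `1`. -/
theorem eq_one_of_fix {R : Type*} [CommRing R] {a c l : R} (h : IsCoprime a c)
    (ha : l * a = a) (hc : l * c = c) : l = 1 := by
  obtain ⟨r, s, hrs⟩ := h
  calc l = l * (r * a + s * c) := by rw [hrs, mul_one]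
    _ = r * (l * a) + s * (l * c) := by ring
    _ = 1 := by rw [ha, hc, hrs]

/-- Two scalars acting in the same way on a primitive pair, one of them a unit, are equal. -/
theorem unit_eq_of_smul_eq {R : Type*} [CommRing R] {a c : R} (h : IsCoprime a c) (u u' : Rˣ)
    (ha : (u : R) * a = (u' : R) * a) (hc : (u : R) * c = (u' : R) * c) : u = u' := by
  obtain ⟨r, s, hrs⟩ := h
  apply Units.ext
  calc (u : R) = (u : R) * (r * a + s * c) := by rw [hrs, mul_one]
    _ = r * ((u : R) * a) + s * ((u : R) * c) := by ring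
    _ = r * ((u' : R) * a) + s * ((u' : R) * c) := by rw [ha, hc]
    _ = (u' : R) * (r * a + s * c) := by ring
    _ = (u' : R) := by rw [hrs, mul_one]

/-- The scalar `r * a' + s * c'` moves `(a, c)` to `(a', c')` when the pairs are proportional
and `r * a + s * c = 1`. -/
theorem scalar_spec {R : Type*} [CommRing R] {a c a' c' r s : R} (hrs : r * a + s * c = 1)
    (hprop : a * c' = c * a') :
    (r * a' + s * c') * a = a' ∧ (r * a' + s * c') * c = c' := by
  constructor
  · calc (r * a' + s * c') * a = r * a * a' + s * (a * c') := by ring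
      _ = (r * a + s * c) * a' := by rw [hprop]; ring
      _ = a' := by rw [hrs, one_mul]
  · calc (r * a' + s * c') * c = r * (c * a') + s * c * c' := by ring
      _ = (r * a + s * c) * c' := by rw [← hprop]; ring
      _ = c' := by rw [hrs, one_mul]

/-- Two proportional primitive pairs differ by a unit. -/
theorem exists_unit_of_prop {R : Type*} [CommRing R] {a c a' c' : R} (h : IsCoprime a c)
    (h' : IsCoprime a' c') (hprop : a * c' = c * a') :
    ∃ u : Rˣ, a' = (u : R) * a ∧ c' = (u : R) * c := by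
  obtain ⟨r, s, hrs⟩ := h
  obtain ⟨r', s', hrs'⟩ := h'
  obtain ⟨h1, h2⟩ := scalar_spec hrs hprop
  have hprop' : a' * c = c' * a := by rw [mul_comm a' c, mul_comm c' a, hprop]
  obtain ⟨h3, h4⟩ := scalar_spec hrs' hprop'
  have hone : (r * a' + s * c') * (r' * a + s' * c) = 1 := by
    refine eq_one_of_fix (⟨r', s', hrs'⟩ : IsCoprime a' c') ?_ ?_
    · rw [mul_assoc, h3, h1]
    · rw [mul_assoc, h4, h2]
  refine ⟨Units.mkOfMulEqOne _ _ hone, ?_, ?_⟩
  · rw [Units.val_mkOfMulEqOne, h1]
  · rw [Units.val_mkOfMulEqOne, h2]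

/-! ### Primitive pairs mod `N` -/

/-- The set of primitive pairs mod `N`. -/
abbrev X (N : ℕ) : Type := {p : ZMod N × ZMod N // IsCoprime p.1 p.2}

/-- The first column of a matrix, reduced mod `N`. -/
def col (N : ℕ) (g : SL(2, ℤ)) : X N :=
  ⟨(((g 0 0 : ℤ) : ZMod N), ((g 1 0 : ℤ) : ZMod N)),
    (isCoprime_col g).map (Int.castRingHom (ZMod N))⟩

/-- Scaling a primitive pair by a unit. -/
def scale (N : ℕ) (u : (ZMod N)ˣ) (p : X N) : X N :=
  ⟨((u : ZMod N) * p.1.1, (u : ZMod N) * p.1.2),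
    (isCoprime_mul_unit_left u.isUnit p.1.1 p.1.2).mpr p.2⟩

theorem col_fst (N : ℕ) (g : SL(2, ℤ)) : (col N g).1.1 = ((g 0 0 : ℤ) : ZMod N) := rfl

theorem col_snd (N : ℕ) (g : SL(2, ℤ)) : (col N g).1.2 = ((g 1 0 : ℤ) : ZMod N) := rfl

theorem scale_fst (N : ℕ) (u : (ZMod N)ˣ) (p : X N) :
    (scale N u p).1.1 = (u : ZMod N) * p.1.1 := rfl

theorem scale_snd (N : ℕ) (u : (ZMod N)ˣ) (p : X N) :
    (scale N u p).1.2 = (u : ZMod N) * p.1.2 := rfl

theorem X_ext {N : ℕ} {p q : X N} (h1 : p.1.1 = q.1.1) (h2 : p.1.2 = q.1.2) : p = q :=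
  Subtype.ext (Prod.ext h1 h2)

/-- Coset criterion in terms of `col`. -/
theorem cmk_eq_cmk_iff_col (N : ℕ) (g g' : SL(2, ℤ)) :
    cmk N g = cmk N g' ↔ (col N g).1.1 * (col N g').1.2 = (col N g).1.2 * (col N g').1.1 :=
  cmk_eq_cmk_iff' N g g'

/-- Equal cosets have first columns differing by a unit mod `N`. -/
theorem exists_scale_of_cmk_eq (N : ℕ) (g g' : SL(2, ℤ)) (h : cmk N g = cmk N g') :
    ∃ u : (ZMod N)ˣ, col N g' = scale N u (col N g) := by
  obtain ⟨u, hu1, hu2⟩ :=
    exists_unit_of_prop (col N g).2 (col N g').2 ((cmk_eq_cmk_iff_col N g g').mp h)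
  exact ⟨u, X_ext hu1 hu2⟩

/-- If two first columns have a common unit multiple, the cosets are equal. -/
theorem cmk_eq_of_scale_eq (N : ℕ) (g g' : SL(2, ℤ)) (u u' : (ZMod N)ˣ)
    (h : scale N u (col N g) = scale N u' (col N g')) : cmk N g = cmk N g' := by
  rw [cmk_eq_cmk_iff_col]
  have h1 : (u : ZMod N) * (col N g).1.1 = (u' : ZMod N) * (col N g').1.1 :=
    congrArg (fun p : X N => p.1.1) h
  have h2 : (u : ZMod N) * (col N g).1.2 = (u' : ZMod N) * (col N g').1.2 :=
    congrArg (fun p : X N => p.1.2) h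
  apply u'.isUnit.mul_left_cancel
  calc (u' : ZMod N) * ((col N g).1.1 * (col N g').1.2)
      = (col N g).1.1 * ((u' : ZMod N) * (col N g').1.2) := by ring
    _ = (col N g).1.2 * ((u : ZMod N) * (col N g).1.1) := by rw [← h2]; ring
    _ = (u' : ZMod N) * ((col N g).1.2 * (col N g').1.1) := by rw [h1]; ring

/-- A chosen representative matrix of a coset. -/
def rep (N : ℕ) (x : Cosets N) : SL(2, ℤ) := Function.surjInv (cmk_surjective N) x

theorem cmk_rep (N : ℕ) (x : Cosets N) : cmk N (rep N x) = x :=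
  Function.surjInv_eq (cmk_surjective N) x

/-- The map `(x, u) ↦ u • col (rep x)`. -/
def toX (N : ℕ) (xu : Cosets N × (ZMod N)ˣ) : X N := scale N xu.2 (col N (rep N xu.1))

theorem toX_injective (N : ℕ) : Function.Injective (toX N) := by
  rintro ⟨x, u⟩ ⟨x', u'⟩ h
  have h' : scale N u (col N (rep N x)) = scale N u' (col N (rep N x')) := h
  have hx : x = x' := by
    have := cmk_eq_of_scale_eq N (rep N x) (rep N x') u u' h'
    rwa [cmk_rep, cmk_rep] at this
  subst hx
  have hu : u = u' :=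
    unit_eq_of_smul_eq (col N (rep N x)).2 u u'
      (congrArg (fun p : X N => p.1.1) h') (congrArg (fun p : X N => p.1.2) h')
  rw [hu]

theorem toX_surjective (N : ℕ) [NeZero N] : Function.Surjective (toX N) := by
  intro p
  obtain ⟨g, hg1, hg2⟩ := exists_col_mod N p.1.1 p.1.2 p.2
  have hp : col N g = p := X_ext hg1 hg2
  obtain ⟨u, hu⟩ := exists_scale_of_cmk_eq N (rep N (cmk N g)) g (cmk_rep N (cmk N g))
  exact ⟨(cmk N g, u), by rw [← hp, hu]; rfl⟩

end CosetPrim

theorem cosetCard_mul_totient (N : ℕ) [NeZero N] :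
    cosetCard N * Nat.totient N = primCount N := by
  have h1 : Nat.card (Cosets N × (ZMod N)ˣ) = Nat.card (CosetPrim.X N) :=
    Nat.card_congr (Equiv.ofBijective (CosetPrim.toX N)
      ⟨CosetPrim.toX_injective N, CosetPrim.toX_surjective N⟩)
  have h2 : Nat.card (ZMod N)ˣ = Nat.totient N := by
    rw [Nat.card_eq_fintype_card, ZMod.card_units_eq_totient]
  rw [Nat.card_prod, h2] at h1
  exact h1

end Fermat.Agent.S24.Comb
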