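import Fermat.Agent.S24.Comb.Defs

/-!
# S24 / C5: cusps, i.e. orbits of `⟨T⟩` on the cosets — definitions (owner: helper20).

For `g` with first column `(a, c)`: `δ := gcd(c, N)` (`cuspD`), `G := gcd(δ, N/δ)` (`cuspG N δ`),
and the class `a * (c/δ)⁻¹ ∈ ZMod G` (`cuspV N δ g`; it is a unit).  The pair
`cuspKey N g = (δ, val (a * (c/δ)⁻¹))` is a complete invariant of the `⟨T⟩`-orbit of the coset
`cmk N g`, and its values are exactly `cuspKeys N = {(d, m) | d ∣ N, m < G(d), gcd(G(d), m) = 1}`,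
a set with `∑ d ∣ N, φ(gcd(d, N/d)) = cuspCount N` elements.
`cuspRel N g g'` is the explicit form of "same orbit":
`δ = δ'` and `a * (c'/δ) ≡ a' * (c/δ) [ZMOD G]`.
-/

set_option autoImplicit false

noncomputable section

namespace Fermat.Agent.S24.Comb

open scoped MatrixGroups

/-- `δ(g) = gcd(c, N)` where `c = g 1 0`. -/
def cuspD (N : ℕ) (g : SL(2, ℤ)) : ℕ := Int.gcd (g 1 0) N

/-- `G(d) = gcd(d, N / d)`. -/
def cuspG (N d : ℕ) : ℕ := Nat.gcd d (N / d)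

/-- The class `a * (c / d)⁻¹` in `ZMod (G(d))` (meaningful for `d = cuspD N g`). -/
def cuspV (N d : ℕ) (g : SL(2, ℤ)) : ZMod (cuspG N d) :=
  ((g 0 0 : ℤ) : ZMod (cuspG N d)) * (((g 1 0 / (d : ℤ) : ℤ) : ZMod (cuspG N d)))⁻¹

/-- The cusp invariant of `g`. -/
def cuspKey (N : ℕ) (g : SL(2, ℤ)) : ℕ × ℕ := (cuspD N g, (cuspV N (cuspD N g) g).val)

/-- The set of all cusp invariants. -/
def cuspKeys (N : ℕ) : Finset (ℕ × ℕ) :=
  N.divisors.biUnion fun d =>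
    ((Finset.range (cuspG N d)).filter fun m => (cuspG N d).Coprime m).image fun m => (d, m)

/-- Explicit form of "the cosets of `g` and `g'` are in the same `⟨T⟩`-orbit". -/
def cuspRel (N : ℕ) (g g' : SL(2, ℤ)) : Prop :=
  cuspD N g = cuspD N g' ∧
    g 0 0 * (g' 1 0 / (cuspD N g : ℤ)) ≡ g' 0 0 * (g 1 0 / (cuspD N g : ℤ))
      [ZMOD (cuspG N (cuspD N g) : ℤ)]

theorem mem_cuspKeys (N : ℕ) (p : ℕ × ℕ) :
    p ∈ cuspKeys N ↔ p.1 ∈ N.divisors ∧ p.2 < cuspG N p.1 ∧ (cuspG N p.1).Coprime p.2 := by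
  obtain ⟨d, m⟩ := p
  simp only [cuspKeys, Finset.mem_biUnion, Finset.mem_image, Finset.mem_filter, Finset.mem_range,
    Prod.mk.injEq]
  constructor
  · rintro ⟨d', hd', m', ⟨hm', hc'⟩, rfl, rfl⟩
    exact ⟨hd', hm', hc'⟩
  · rintro ⟨hd, hm, hc⟩
    exact ⟨d, hd, m, ⟨hm, hc⟩, rfl, rfl⟩

end Fermat.Agent.S24.Comb
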