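import Fermat.Agent.S24.Comb.CuspDefs

/-!
# S24 / C5a: the `⟨T⟩`-orbit relation on cosets in explicit form.
(one worker; statement frozen)

Notation: `(a, c)`, `(a', c')` first columns of `g`, `g'` (coprime pairs: `isCoprime_col`);
`δ = cuspD N g = Int.gcd c N`, `δ' = cuspD N g'`, `G = cuspG N δ = Nat.gcd δ (N / δ)`.
By `cmk_eq_cmk_iff` and `T_zpow_mul_apply_zero_zero`, `T_zpow_mul_apply_one_zero`:
`cmk N (T ^ k * g) = cmk N g' ↔ (N : ℤ) ∣ (a + k * c) * c' - c * a'`.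

(⇒) Suppose `N ∣ (a + k c) c' - c a'`.  `δ ∣ c`, `δ ∣ N` so `δ ∣ (a + k c) c'`, and
`gcd(δ, a + k c) = 1` (as `δ ∣ c` and `IsCoprime (a + k c) c`), hence `δ ∣ c'`, so `δ ∣ δ'`.
Symmetrically `δ' ∣ c a'`, `gcd(δ', a') = 1`, so `δ' ∣ c`, `δ' ∣ δ`.  Thus `δ = δ'`.
Write `c = δ c₁`, `c' = δ c₁'`, `N = δ M`: dividing by `δ`,
`M ∣ (a + k δ c₁) c₁' - c₁ a'`, and `G ∣ M`, `G ∣ δ` give `G ∣ a c₁' - a' c₁`.
(⇐) Given `δ = δ'` and `G ∣ B := a c₁' - a' c₁`.  Want `k` with `M ∣ B + k * A`, `A := δ c₁ c₁'`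
(then multiply by `δ`).  `gcd(c₁, M) = 1 = gcd(c₁', M)` (since `gcd(c, N) = δ`), so
`gcd(A, M) = gcd(δ, M) = G`; Bézout `s A + t M = G` and `B = G B₁` give `k := - B₁ s`.
Note `c = 0` is allowed (then `δ = N`, `M = 1`, `G = 1`); `N ≥ 1` so `δ ≥ 1`.
-/

set_option autoImplicit false

noncomputable section

namespace Fermat.Agent.S24.Comb

open scoped MatrixGroups
open ModularGroup

namespace CuspRel

/-- If `d ∣ c`, `d ∣ n`, `n ∣ x * c' - c * a'` and `x`, `c` are coprime, then `d ∣ c'`. -/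
theorem dvd_of_dvd_sub {d n x c a' c' : ℤ} (hdc : d ∣ c) (hdn : d ∣ n) (hx : IsCoprime x c)
    (h : n ∣ x * c' - c * a') : d ∣ c' := by
  have h1 : d ∣ x * c' := by
    have h2 : d ∣ x * c' - c * a' := hdn.trans h
    have h3 : d ∣ c * a' := Dvd.dvd.mul_right hdc a'
    have h4 := dvd_add h2 h3
    rwa [sub_add_cancel] at h4
  have hco : IsCoprime d x := (hx.of_isCoprime_of_dvd_right hdc).symm
  exact hco.dvd_of_dvd_mul_left h1

/-- The pure divisibility statement for the forward direction: the two gcds agree. -/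
theorem gcd_eq_of_dvd {N : ℕ} {a c a' c' k : ℤ} (h : IsCoprime a c) (h' : IsCoprime a' c')
    (hk : (N : ℤ) ∣ (a + k * c) * c' - c * a') : Int.gcd c N = Int.gcd c' N := by
  have hx : IsCoprime (a + k * c) c := by
    simpa using (IsCoprime.add_mul_right_left h k)
  have h1 : ((Int.gcd c N : ℕ) : ℤ) ∣ c' :=
    dvd_of_dvd_sub (Int.gcd_dvd_left c N) (Int.gcd_dvd_right c N) hx hk
  have hk' : (N : ℤ) ∣ a' * c - c' * (a + k * c) := by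
    have : a' * c - c' * (a + k * c) = -((a + k * c) * c' - c * a') := by ring
    rw [this]
    exact (dvd_neg).mpr hk
  have h2 : ((Int.gcd c' N : ℕ) : ℤ) ∣ c :=
    dvd_of_dvd_sub (Int.gcd_dvd_left c' N) (Int.gcd_dvd_right c' N) h' hk'
  apply Nat.dvd_antisymm
  · exact Int.natCast_dvd_natCast.mp (Int.dvd_coe_gcd h1 (Int.gcd_dvd_right c N))
  · exact Int.natCast_dvd_natCast.mp (Int.dvd_coe_gcd h2 (Int.gcd_dvd_right c' N))

/-- Forward direction after dividing by `δ`. -/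
theorem dvd_of_dvd_fwd {δ M G a c₁ a' c₁' k : ℤ} (hδ : δ ≠ 0) (hGδ : G ∣ δ) (hGM : G ∣ M)
    (hk : δ * M ∣ (a + k * (δ * c₁)) * (δ * c₁') - δ * c₁ * a') :
    G ∣ a' * c₁ - a * c₁' := by
  have h1 : δ * M ∣ δ * ((a + k * (δ * c₁)) * c₁' - c₁ * a') := by
    have : δ * ((a + k * (δ * c₁)) * c₁' - c₁ * a')
        = (a + k * (δ * c₁)) * (δ * c₁') - δ * c₁ * a' := by ring
    rw [this]
    exact hk
  have h2 : M ∣ (a + k * (δ * c₁)) * c₁' - c₁ * a' := (mul_dvd_mul_iff_left hδ).mp h1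
  have h3 : G ∣ (a + k * (δ * c₁)) * c₁' - c₁ * a' := hGM.trans h2
  have h4 : G ∣ δ * (k * c₁ * c₁') := Dvd.dvd.mul_right hGδ _
  have h5 : a' * c₁ - a * c₁'
      = δ * (k * c₁ * c₁') - ((a + k * (δ * c₁)) * c₁' - c₁ * a') := by ring
  rw [h5]
  exact dvd_sub h4 h3

/-- Backward direction after dividing by `δ`: the algebraic core (Bézout). -/
theorem exists_k {δ M G a c₁ a' c₁' : ℤ} (hc₁ : IsCoprime c₁ M) (hc₁' : IsCoprime c₁' M)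
    (hG : ∃ u v : ℤ, G = u * δ + v * M) (hdvd : G ∣ a' * c₁ - a * c₁') :
    ∃ k : ℤ, δ * M ∣ (a + k * (δ * c₁)) * (δ * c₁') - δ * c₁ * a' := by
  obtain ⟨u, v, rfl⟩ := hG
  obtain ⟨B₁, hB₁⟩ := hdvd
  obtain ⟨s, t, hst⟩ := hc₁.mul_left hc₁'
  refine ⟨u * B₁ * s, ⟨-(u * δ * B₁ * t) - v * B₁, ?_⟩⟩
  linear_combination (-δ) * hB₁ + (δ * u * B₁ * δ) * hst

/-- If `gcd (δ * c₁) (δ * M) = δ ≠ 0` then `c₁` and `M` are coprime. -/
theorem isCoprime_of_gcd_mul {δ : ℕ} {c₁ : ℤ} {M : ℕ} (hδ : δ ≠ 0)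
    (h : Int.gcd ((δ : ℤ) * c₁) ((δ * M : ℕ) : ℤ) = δ) : IsCoprime c₁ (M : ℤ) := by
  rw [Int.isCoprime_iff_gcd_eq_one]
  have h1 : Int.gcd ((δ : ℤ) * c₁) ((δ : ℤ) * (M : ℤ)) = δ * Int.gcd c₁ M := by
    rw [Int.gcd_mul_left, Int.natAbs_natCast]
  rw [Nat.cast_mul, h1] at h
  exact Nat.eq_of_mul_eq_mul_left (Nat.pos_of_ne_zero hδ) (by rw [h, mul_one])

/-- The integer statement. -/
theorem int_iff (N : ℕ) (hN : N ≠ 0) (a c a' c' : ℤ) (h : IsCoprime a c) (h' : IsCoprime a' c') :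
    (∃ k : ℤ, (N : ℤ) ∣ (a + k * c) * c' - c * a') ↔
      (Int.gcd c N = Int.gcd c' N ∧
        a * (c' / ((Int.gcd c N : ℕ) : ℤ)) ≡ a' * (c / ((Int.gcd c N : ℕ) : ℤ))
          [ZMOD ((Nat.gcd (Int.gcd c N) (N / Int.gcd c N) : ℕ) : ℤ)]) := by
  have hN' : (N : ℤ) ≠ 0 := Int.natCast_ne_zero.mpr hN
  have hδ0 : Int.gcd c N ≠ 0 := fun h0 => hN' (Int.gcd_eq_zero_iff.mp h0).2
  constructor
  · rintro ⟨k, hk⟩
    have hd : Int.gcd c N = Int.gcd c' N := gcd_eq_of_dvd h h' hk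
    refine ⟨hd, ?_⟩
    have hc' : ((Int.gcd c N : ℕ) : ℤ) ∣ c' := by rw [hd]; exact Int.gcd_dvd_left c' N
    have hc : ((Int.gcd c N : ℕ) : ℤ) ∣ c := Int.gcd_dvd_left c N
    have hNd : Int.gcd c N ∣ N := Int.natCast_dvd_natCast.mp (Int.gcd_dvd_right c N)
    generalize Int.gcd c N = δ at *
    obtain ⟨c₁, rfl⟩ := hc
    obtain ⟨c₁', rfl⟩ := hc'
    obtain ⟨M, rfl⟩ := hNd
    have hδ' : (δ : ℤ) ≠ 0 := Int.natCast_ne_zero.mpr hδ0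
    rw [Int.mul_ediv_cancel_left _ hδ', Int.mul_ediv_cancel_left _ hδ',
      Nat.mul_div_cancel_left _ (Nat.pos_of_ne_zero hδ0), Int.modEq_iff_dvd]
    rw [Nat.cast_mul] at hk
    exact dvd_of_dvd_fwd hδ' (Int.natCast_dvd_natCast.mpr (Nat.gcd_dvd_left δ M))
      (Int.natCast_dvd_natCast.mpr (Nat.gcd_dvd_right δ M)) hk
  · rintro ⟨hd, hmod⟩
    have hc' : ((Int.gcd c N : ℕ) : ℤ) ∣ c' := by rw [hd]; exact Int.gcd_dvd_left c' N
    have hc : ((Int.gcd c N : ℕ) : ℤ) ∣ c := Int.gcd_dvd_left c N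
    have hNd : Int.gcd c N ∣ N := Int.natCast_dvd_natCast.mp (Int.gcd_dvd_right c N)
    obtain ⟨δ, e1⟩ : ∃ δ : ℕ, Int.gcd c N = δ := ⟨_, rfl⟩
    have e2 : Int.gcd c' N = δ := by rw [← hd, e1]
    rw [e1] at hc' hc hNd hmod hδ0
    obtain ⟨c₁, rfl⟩ := hc
    obtain ⟨c₁', rfl⟩ := hc'
    obtain ⟨M, rfl⟩ := hNd
    have hδ' : (δ : ℤ) ≠ 0 := Int.natCast_ne_zero.mpr hδ0
    rw [Int.mul_ediv_cancel_left _ hδ', Int.mul_ediv_cancel_left _ hδ',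
      Nat.mul_div_cancel_left _ (Nat.pos_of_ne_zero hδ0), Int.modEq_iff_dvd] at hmod
    rw [Nat.cast_mul]
    refine exists_k (isCoprime_of_gcd_mul hδ0 e1) (isCoprime_of_gcd_mul hδ0 e2) ?_ hmod
    refine ⟨Int.gcdA δ M, Int.gcdB δ M, ?_⟩
    rw [← Int.gcd_natCast_natCast, Int.gcd_eq_gcd_ab]
    ring

end CuspRel

theorem orbit_iff_cuspRel (N : ℕ) [NeZero N] (g g' : SL(2, ℤ)) :
    (∃ k : ℤ, cmk N (T ^ k * g) = cmk N g') ↔ cuspRel N g g' := by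
  have key := CuspRel.int_iff N (NeZero.ne N) (g 0 0) (g 1 0) (g' 0 0) (g' 1 0)
    (isCoprime_col g) (isCoprime_col g')
  unfold cuspRel cuspG cuspD
  rw [← key]
  refine exists_congr fun k => ?_
  rw [cmk_eq_cmk_iff, T_zpow_mul_apply_zero_zero, T_zpow_mul_apply_one_zero]

end Fermat.Agent.S24.Comb
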