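import Fermat.Agent.S24.Basic

/-!
# S24, component C: common definitions and basic API (owner: helper20).

`cmk N g` is the coset `g Γ₀(N)`; two matrices give the same coset iff their first columns
`(a, c)`, `(a', c')` satisfy `N ∣ a * c' - c * a'`.  The left action of `S`, `T`, `S * T` on first
columns is `(a, c) ↦ (-c, a)`, `(a + c, c)`, `(-c, a + c)`.
-/

set_option autoImplicit false

noncomputable section

namespace Fermat.Agent.S24.Comb

open scoped MatrixGroups
open ModularGroup Matrix.SpecialLinearGroup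

/-- The coset `g Γ₀(N)` of a matrix `g`. -/
def cmk (N : ℕ) (g : SL(2, ℤ)) : Cosets N := QuotientGroup.mk g

theorem cmk_surjective (N : ℕ) : Function.Surjective (cmk N) := QuotientGroup.mk_surjective

theorem smul_cmk (N : ℕ) (h g : SL(2, ℤ)) : h • cmk N g = cmk N (h * g) := rfl

/-- Entry `(1, 0)` of `g⁻¹ * g'`. -/
theorem inv_mul_apply_one_zero (g g' : SL(2, ℤ)) :
    (g⁻¹ * g') 1 0 = g 0 0 * g' 1 0 - g 1 0 * g' 0 0 := by
  rw [Matrix.SpecialLinearGroup.coe_mul, Matrix.SpecialLinearGroup.coe_inv,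
    Matrix.adjugate_fin_two]
  simp [Matrix.mul_apply, Fin.sum_univ_two]
  ring

/-- **Coset criterion**: `g Γ₀(N) = g' Γ₀(N)` iff the first columns are proportional mod `N`. -/
theorem cmk_eq_cmk_iff (N : ℕ) (g g' : SL(2, ℤ)) :
    cmk N g = cmk N g' ↔ (N : ℤ) ∣ g 0 0 * g' 1 0 - g 1 0 * g' 0 0 := by
  rw [cmk, cmk, QuotientGroup.eq, CongruenceSubgroup.Gamma0_mem, inv_mul_apply_one_zero,
    ZMod.intCast_zmod_eq_zero_iff_dvd]

/-- The same criterion as a congruence in `ZMod N`. -/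
theorem cmk_eq_cmk_iff' (N : ℕ) (g g' : SL(2, ℤ)) :
    cmk N g = cmk N g' ↔
      ((g 0 0 : ℤ) : ZMod N) * ((g' 1 0 : ℤ) : ZMod N)
        = ((g 1 0 : ℤ) : ZMod N) * ((g' 0 0 : ℤ) : ZMod N) := by
  rw [cmk_eq_cmk_iff, ← ZMod.intCast_zmod_eq_zero_iff_dvd]
  push_cast
  exact sub_eq_zero

theorem S_mul_apply_zero_zero (g : SL(2, ℤ)) : (S * g) 0 0 = -g 1 0 := by
  rw [Matrix.SpecialLinearGroup.coe_mul, coe_S]
  simp [Matrix.mul_apply, Fin.sum_univ_two]

theorem S_mul_apply_one_zero (g : SL(2, ℤ)) : (S * g) 1 0 = g 0 0 := by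
  rw [Matrix.SpecialLinearGroup.coe_mul, coe_S]
  simp [Matrix.mul_apply, Fin.sum_univ_two]

theorem T_mul_apply_zero_zero (g : SL(2, ℤ)) : (T * g) 0 0 = g 0 0 + g 1 0 := by
  rw [Matrix.SpecialLinearGroup.coe_mul, coe_T]
  simp [Matrix.mul_apply, Fin.sum_univ_two]

theorem T_mul_apply_one_zero (g : SL(2, ℤ)) : (T * g) 1 0 = g 1 0 := by
  rw [Matrix.SpecialLinearGroup.coe_mul, coe_T]
  simp [Matrix.mul_apply, Fin.sum_univ_two]

theorem ST_mul_apply_zero_zero (g : SL(2, ℤ)) : (S * T * g) 0 0 = -g 1 0 := by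
  rw [mul_assoc, S_mul_apply_zero_zero, T_mul_apply_one_zero]

theorem ST_mul_apply_one_zero (g : SL(2, ℤ)) : (S * T * g) 1 0 = g 0 0 + g 1 0 := by
  rw [mul_assoc, S_mul_apply_one_zero, T_mul_apply_zero_zero]

theorem T_zpow_mul_apply_zero_zero (k : ℤ) (g : SL(2, ℤ)) :
    (T ^ k * g) 0 0 = g 0 0 + k * g 1 0 := by
  rw [Matrix.SpecialLinearGroup.coe_mul, coe_T_zpow]
  simp [Matrix.mul_apply, Fin.sum_univ_two]

theorem T_zpow_mul_apply_one_zero (k : ℤ) (g : SL(2, ℤ)) : (T ^ k * g) 1 0 = g 1 0 := by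
  rw [Matrix.SpecialLinearGroup.coe_mul, coe_T_zpow]
  simp [Matrix.mul_apply, Fin.sum_univ_two]

/-- The first column of a matrix in `SL(2, ℤ)` is a coprime pair. -/
theorem isCoprime_col (g : SL(2, ℤ)) : IsCoprime (g 0 0) (g 1 0) :=
  Matrix.SpecialLinearGroup.isCoprime_col g 0

/-- Every coprime pair of integers is the first column of a matrix in `SL(2, ℤ)`. -/
theorem exists_col {a c : ℤ} (h : IsCoprime a c) : ∃ g : SL(2, ℤ), g 0 0 = a ∧ g 1 0 = c :=
  h.exists_SL2_col 0

/-- The coset space is finite (this is a Mathlib instance; `inferInstance` finds it). -/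
theorem finite_cosets' (N : ℕ) [NeZero N] : Finite (Cosets N) := inferInstance

/-- `SL(2, ℤ)` acts transitively on the cosets. -/
theorem exists_smul_eq (N : ℕ) (x y : Cosets N) : ∃ h : SL(2, ℤ), h • x = y := by
  obtain ⟨g, rfl⟩ := cmk_surjective N x
  obtain ⟨g', rfl⟩ := cmk_surjective N y
  exact ⟨g' * g⁻¹, by rw [smul_cmk, inv_mul_cancel_right]⟩

/-- Bridging lemma (`rfl`): in `orbCard` the action of `↥(Subgroup.zpowers g)` on `Cosets N` is
Mathlib's instance `MulAction.mulLeftCosetsCompSubtypeVal`; it is definitionally (but not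
syntactically) the restriction `Subgroup.instMulAction` of the `SL(2, ℤ)`-action, which is the
instance appearing when a general lemma about `[Group G] [MulAction G X]` is specialised to
`G := SL(2, ℤ)`, `X := Cosets N`.  Rewrite with this lemma before using such general lemmas. -/
theorem orbCard_eq (N : ℕ) (g : SL(2, ℤ)) :
    orbCard N g = Nat.card (@MulAction.orbitRel.Quotient (Subgroup.zpowers g) (Cosets N) _
      Subgroup.instMulAction) := rfl

/-- Two cosets are in the same orbit of `⟨h⟩` iff some power of `h` moves one to the other. -/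
theorem orbit_mk_eq_iff (N : ℕ) (h g g' : SL(2, ℤ)) :
    (Quotient.mk'' (cmk N g) :
        MulAction.orbitRel.Quotient (Subgroup.zpowers h) (Cosets N)) = Quotient.mk'' (cmk N g')
      ↔ ∃ k : ℤ, cmk N (h ^ k * g) = cmk N g' := by
  rw [Quotient.eq'']
  change cmk N g ∈ MulAction.orbit (Subgroup.zpowers h) (cmk N g') ↔ _
  rw [MulAction.mem_orbit_iff]
  constructor
  · rintro ⟨⟨_, k, rfl⟩, hk⟩
    refine ⟨-k, ?_⟩
    have hk' : cmk N (h ^ k * g') = cmk N g := hk
    rw [← smul_cmk, ← hk', ← smul_cmk, smul_smul, ← zpow_add, neg_add_cancel, zpow_zero, one_smul]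
  · rintro ⟨k, hk⟩
    refine ⟨⟨h ^ (-k), -k, rfl⟩, ?_⟩
    change h ^ (-k) • cmk N g' = cmk N g
    rw [← hk, ← smul_cmk, smul_smul, ← zpow_add, neg_add_cancel, zpow_zero, one_smul]

/-- Abstract counting principle: if `π : A → Q` is surjective and `key : A → B` separates exactly
the fibres of `π`, then `Q` is in bijection with the range of `key`. -/
theorem card_eq_card_range {A Q B : Type*} (π : A → Q) (hπ : Function.Surjective π) (key : A → B)
    (h : ∀ a a', π a = π a' ↔ key a = key a') : Nat.card Q = Nat.card (Set.range key) := by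
  classical
  let f : Q → Set.range key := fun q => ⟨key (hπ q).choose, ⟨_, rfl⟩⟩
  have hf : ∀ a, f (π a) = ⟨key a, ⟨a, rfl⟩⟩ := fun a =>
    Subtype.ext ((h _ _).mp (hπ (π a)).choose_spec)
  refine Nat.card_congr (Equiv.ofBijective f ⟨?_, ?_⟩)
  · intro q q' hqq
    obtain ⟨a, rfl⟩ := hπ q
    obtain ⟨a', rfl⟩ := hπ q'
    rw [hf, hf] at hqq
    exact (h _ _).mpr (Subtype.ext_iff.mp hqq)
  · rintro ⟨_, a, rfl⟩
    exact ⟨π a, hf a⟩

end Fermat.Agent.S24.Comb
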