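import Fermat.Agent.S24.Comb.PrimDefs

/-!
# S24 / C1b: the number of primitive pairs is multiplicative.   (one worker; statements frozen)

`primCount N = Nat.card {p : ZMod N × ZMod N // IsCoprime p.1 p.2}`.

Hints: `ZMod.chineseRemainder (h : m.Coprime n) : ZMod (m * n) ≃+* ZMod m × ZMod n`; a ring
isomorphism preserves `IsCoprime` (`IsCoprime.map`); in a product ring `R × S`,
`IsCoprime (a₁, a₂) (c₁, c₂) ↔ IsCoprime a₁ c₁ ∧ IsCoprime a₂ c₂` (prove it directly from the
definition `∃ u v, u * a + v * c = 1`).  So the subtype for `m * n` is equivalent to the product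
of the subtypes for `m` and `n`; `Nat.card_prod`, `Nat.card_congr`.
(Edge cases `m = 0` / `n = 0` need no special treatment: the equivalence exists for all coprime
`m`, `n`.)
-/

set_option autoImplicit false

noncomputable section

namespace Fermat.Agent.S24.Comb

namespace PrimMul

/-- In a product ring, coprimality is componentwise. -/
theorem isCoprime_prod_iff {R S : Type*} [CommSemiring R] [CommSemiring S] (a c : R × S) :
    IsCoprime a c ↔ IsCoprime a.1 c.1 ∧ IsCoprime a.2 c.2 := by
  constructor
  · rintro ⟨u, v, h⟩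
    exact ⟨⟨u.1, v.1, congrArg Prod.fst h⟩, ⟨u.2, v.2, congrArg Prod.snd h⟩⟩
  · rintro ⟨⟨u₁, v₁, h₁⟩, ⟨u₂, v₂, h₂⟩⟩
    exact ⟨(u₁, u₂), (v₁, v₂), Prod.ext h₁ h₂⟩

/-- A ring isomorphism preserves and reflects coprimality. -/
theorem isCoprime_map_equiv {R S : Type*} [CommSemiring R] [CommSemiring S] (e : R ≃+* S)
    (a c : R) : IsCoprime (e a) (e c) ↔ IsCoprime a c := by
  constructor
  · intro H
    have h := H.map (e.symm : S →+* R)
    simpa using h
  · intro H
    exact H.map (e : R →+* S)

/-- The Chinese remainder equivalence on primitive pairs. -/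
def primEquiv {m n : ℕ} (h : Nat.Coprime m n) :
    {p : ZMod (m * n) × ZMod (m * n) // IsCoprime p.1 p.2} ≃
      {p : ZMod m × ZMod m // IsCoprime p.1 p.2} × {p : ZMod n × ZMod n // IsCoprime p.1 p.2} :=
  ((Equiv.subtypeEquiv
      (p := fun p : ZMod (m * n) × ZMod (m * n) => IsCoprime p.1 p.2)
      (q := fun q : (ZMod m × ZMod n) × (ZMod m × ZMod n) => IsCoprime q.1 q.2)
      (Equiv.prodCongr (ZMod.chineseRemainder h).toEquiv (ZMod.chineseRemainder h).toEquiv)
      (fun p => (isCoprime_map_equiv (ZMod.chineseRemainder h) p.1 p.2).symm)).trans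
    (Equiv.subtypeEquiv
      (p := fun q : (ZMod m × ZMod n) × (ZMod m × ZMod n) => IsCoprime q.1 q.2)
      (q := fun q : (ZMod m × ZMod m) × (ZMod n × ZMod n) =>
        IsCoprime q.1.1 q.1.2 ∧ IsCoprime q.2.1 q.2.2)
      (Equiv.prodProdProdComm (ZMod m) (ZMod n) (ZMod m) (ZMod n))
      (fun q => isCoprime_prod_iff q.1 q.2))).trans
    (Equiv.subtypeProdEquivProd
      (p := fun a : ZMod m × ZMod m => IsCoprime a.1 a.2)
      (q := fun b : ZMod n × ZMod n => IsCoprime b.1 b.2))

end PrimMul

theorem primCount_one : primCount 1 = 1 := by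
  unfold primCount
  have hsub : Subsingleton (ZMod 1) := by
    change Subsingleton (Fin 1)
    infer_instance
  have huniq : Unique {p : ZMod 1 × ZMod 1 // IsCoprime p.1 p.2} :=
    { default := ⟨(0, 0), ⟨0, 0, Subsingleton.elim _ _⟩⟩
      uniq := fun x => Subsingleton.elim _ _ }
  exact Nat.card_unique

theorem primCount_mul {m n : ℕ} (h : Nat.Coprime m n) :
    primCount (m * n) = primCount m * primCount n := by
  unfold primCount
  rw [← Nat.card_prod]
  exact Nat.card_congr (PrimMul.primEquiv h)

end Fermat.Agent.S24.Comb
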