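import Fermat.Agent.S24.Comb.PrimDefs

/-!
# S24 / C1c: the number of primitive pairs modulo a prime power.
(one worker; statement frozen)

`primCount N = Nat.card {p : ZMod N × ZMod N // IsCoprime p.1 p.2}`.

Math: in `ZMod (p ^ k)` (`k ≥ 1`) an element is a unit iff it is not divisible by `p`
(`ZMod.isUnit_iff_coprime`, `ZMod.natCast_self_eq_zero`, ...), and
`IsCoprime a c ↔ IsUnit a ∨ IsUnit c` (if neither is a unit, both are multiples of `p`, and
`u * a + v * c = 1` would make `1` a multiple of `p`, i.e. `p` a unit or `p ^ k ∣ p ^ (k-1) * ...`;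
conversely a unit is coprime to everything: `isCoprime_of_isUnit`-type lemmas).
The non-units number `p ^ k - φ(p ^ k) = p ^ (k - 1)` (`ZMod.card_units_eq_totient`,
`Nat.totient_prime_pow`), so
`#primitive pairs = (p^k)^2 - (p^(k-1))^2 = φ(p^k) * (p^k + p^(k-1))`
(`φ(p^k) = p^(k-1) * (p - 1)`).
-/

set_option autoImplicit false

noncomputable section

namespace Fermat.Agent.S24.Comb

namespace PrimPP

/-- In `ZMod (p ^ k)` (`k ≥ 1`), an element is a unit iff its canonical representative is not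
divisible by `p`. -/
theorem isUnit_iff_not_dvd_val {p k : ℕ} (hp : p.Prime) (hk : 0 < k) (a : ZMod (p ^ k)) :
    IsUnit a ↔ ¬ p ∣ a.val := by
  have : NeZero (p ^ k) := ⟨pow_ne_zero k hp.ne_zero⟩
  have h1 : IsUnit ((a.val : ℕ) : ZMod (p ^ k)) ↔ ¬ p ∣ a.val := by
    rw [ZMod.isUnit_iff_coprime, Nat.coprime_pow_right_iff hk, Nat.coprime_comm,
      hp.coprime_iff_not_dvd]
  rwa [ZMod.natCast_zmod_val a] at h1

/-- `p` is not a unit in `ZMod (p ^ k)` (`k ≥ 1`). -/
theorem not_isUnit_natCast_self {p k : ℕ} (hp : p.Prime) (hk : 0 < k) :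
    ¬ IsUnit ((p : ℕ) : ZMod (p ^ k)) := by
  rw [ZMod.isUnit_prime_iff_not_dvd hp, not_not]
  exact dvd_pow_self p hk.ne'

/-- A unit is coprime to everything (left version). -/
theorem isCoprime_of_isUnit_left {R : Type*} [CommRing R] {a : R} (h : IsUnit a) (c : R) :
    IsCoprime a c := by
  obtain ⟨b, hb⟩ := h.exists_left_inv
  exact ⟨b, 0, by rw [hb, zero_mul, add_zero]⟩

/-- A unit is coprime to everything (right version). -/
theorem isCoprime_of_isUnit_right {R : Type*} [CommRing R] (a : R) {c : R} (h : IsUnit c) :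
    IsCoprime a c := by
  obtain ⟨b, hb⟩ := h.exists_left_inv
  exact ⟨0, b, by rw [hb, zero_mul, zero_add]⟩

/-- In `ZMod (p ^ k)` (`k ≥ 1`), two elements are coprime iff one of them is a unit. -/
theorem isCoprime_iff {p k : ℕ} (hp : p.Prime) (hk : 0 < k) (a c : ZMod (p ^ k)) :
    IsCoprime a c ↔ IsUnit a ∨ IsUnit c := by
  have : NeZero (p ^ k) := ⟨pow_ne_zero k hp.ne_zero⟩
  constructor
  · rintro ⟨u, v, huv⟩
    by_contra hcon
    rw [not_or] at hcon
    obtain ⟨ha, hc⟩ := hcon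
    rw [isUnit_iff_not_dvd_val hp hk, not_not] at ha hc
    obtain ⟨a', ha'⟩ := ha
    obtain ⟨c', hc'⟩ := hc
    have h1 : a = (p : ZMod (p ^ k)) * (a' : ZMod (p ^ k)) := by
      rw [← ZMod.natCast_zmod_val a, ha', Nat.cast_mul]
    have h2 : c = (p : ZMod (p ^ k)) * (c' : ZMod (p ^ k)) := by
      rw [← ZMod.natCast_zmod_val c, hc', Nat.cast_mul]
    apply not_isUnit_natCast_self hp hk
    refine IsUnit.of_mul_eq_one (u * a' + v * c') ?_
    rw [← huv, h1, h2]
    ring
  · rintro (h | h)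
    · exact isCoprime_of_isUnit_left h c
    · exact isCoprime_of_isUnit_right a h

/-- The units of a monoid, as a subtype. -/
def unitsEquivSubtype (R : Type*) [Monoid R] : Rˣ ≃ {a : R // IsUnit a} where
  toFun u := ⟨u, u.isUnit⟩
  invFun a := a.2.unit
  left_inv _ := Units.ext rfl
  right_inv _ := Subtype.ext rfl

/-- The number of units of `ZMod (p ^ k)`. -/
theorem card_isUnit {p k : ℕ} (hp : p.Prime) :
    Nat.card {a : ZMod (p ^ k) // IsUnit a} = Nat.totient (p ^ k) := by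
  classical
  have : NeZero (p ^ k) := ⟨pow_ne_zero k hp.ne_zero⟩
  rw [← Nat.card_congr (unitsEquivSubtype (ZMod (p ^ k))), Nat.card_eq_fintype_card,
    ZMod.card_units_eq_totient]

/-- The number of non-units of `ZMod (p ^ (j + 1))`. -/
theorem card_not_isUnit {p j : ℕ} (hp : p.Prime) :
    Nat.card {a : ZMod (p ^ (j + 1)) // ¬ IsUnit a} = p ^ j := by
  classical
  have : NeZero (p ^ (j + 1)) := ⟨pow_ne_zero _ hp.ne_zero⟩
  have h := card_isUnit (k := j + 1) hp
  rw [Nat.card_eq_fintype_card] at h ⊢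
  rw [Fintype.card_subtype_compl, h, ZMod.card, Nat.totient_prime_pow_succ hp]
  obtain ⟨m, rfl⟩ : ∃ m, p = m + 1 := ⟨p - 1, (Nat.succ_pred_eq_of_pos hp.pos).symm⟩
  apply Nat.sub_eq_of_eq_add
  rw [Nat.add_sub_cancel, pow_succ]
  ring

/-- The number of pairs of non-units of `ZMod (p ^ (j + 1))`. -/
theorem card_not_isUnit_pairs {p j : ℕ} (hp : p.Prime) :
    Nat.card {q : ZMod (p ^ (j + 1)) × ZMod (p ^ (j + 1)) // ¬ IsUnit q.1 ∧ ¬ IsUnit q.2}
      = p ^ j * p ^ j := by
  rw [Nat.card_congr (Equiv.subtypeProdEquivProd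
    (p := fun a : ZMod (p ^ (j + 1)) => ¬ IsUnit a)
    (q := fun a : ZMod (p ^ (j + 1)) => ¬ IsUnit a)),
    Nat.card_prod, card_not_isUnit hp]

/-- The number of coprime pairs in `ZMod (p ^ (j + 1))`, as a difference:
all pairs minus the pairs of non-units. -/
theorem primCount_eq_sub {p j : ℕ} (hp : p.Prime) :
    primCount (p ^ (j + 1)) = p ^ (j + 1) * p ^ (j + 1) - p ^ j * p ^ j := by
  classical
  have : NeZero (p ^ (j + 1)) := ⟨pow_ne_zero _ hp.ne_zero⟩
  have e : {q : ZMod (p ^ (j + 1)) × ZMod (p ^ (j + 1)) // IsCoprime q.1 q.2} ≃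
      {q : ZMod (p ^ (j + 1)) × ZMod (p ^ (j + 1)) // ¬ (¬ IsUnit q.1 ∧ ¬ IsUnit q.2)} :=
    Equiv.subtypeEquivRight (fun q => by
      rw [isCoprime_iff hp (Nat.succ_pos j), not_and_or, not_not, not_not])
  have h := card_not_isUnit_pairs (j := j) hp
  rw [Nat.card_eq_fintype_card] at h
  unfold primCount
  rw [Nat.card_congr e, Nat.card_eq_fintype_card, Fintype.card_subtype_compl, h,
    Fintype.card_prod, ZMod.card]

end PrimPP

theorem primCount_prime_pow {p k : ℕ} (hp : p.Prime) (hk : 0 < k) :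
    primCount (p ^ k) = Nat.totient (p ^ k) * (p ^ k + p ^ (k - 1)) := by
  obtain ⟨j, rfl⟩ : ∃ j, k = j + 1 := ⟨k - 1, (Nat.succ_pred_eq_of_pos hk).symm⟩
  rw [PrimPP.primCount_eq_sub hp, Nat.totient_prime_pow_succ hp, Nat.add_sub_cancel]
  obtain ⟨m, rfl⟩ : ∃ m, p = m + 1 := ⟨p - 1, (Nat.succ_pred_eq_of_pos hp.pos).symm⟩
  apply Nat.sub_eq_of_eq_add
  rw [Nat.add_sub_cancel, pow_succ]
  ring

end Fermat.Agent.S24.Comb
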