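import Fermat.Agent.S24.Comb.PsiMul
import Fermat.Agent.S24.Comb.PrimMul
import Fermat.Agent.S24.Comb.PrimPP
import Fermat.Agent.S24.Comb.CosetPrim

/-!
# S24 / C1: the index of `Γ₀(N)` is `ψ(N)` (assembly; owner: helper20).
-/

set_option autoImplicit false

noncomputable section

namespace Fermat.Agent.S24.Comb

open ModularCurve

theorem primCount_eq (N : ℕ) (hN : N ≠ 0) : primCount N = Nat.totient N * dedekindPsi N := by
  induction N using Nat.recOnPosPrimePosCoprime with
  | prime_pow p k hp hk =>
    rw [primCount_prime_pow hp hk, dedekindPsi_prime_pow hp hk]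
  | zero => exact absurd rfl hN
  | one => simp [primCount_one]
  | coprime a b ha hb hab iha ihb =>
    rw [primCount_mul hab, Nat.totient_mul hab, dedekindPsi_mul hab, iha (by omega),
      ihb (by omega)]
    ring

theorem index_eq (N : ℕ) [NeZero N] : cosetCard N = dedekindPsi N := by
  have h1 := cosetCard_mul_totient N
  rw [primCount_eq N (NeZero.ne N), mul_comm] at h1
  exact Nat.eq_of_mul_eq_mul_left (Nat.totient_pos.mpr (Nat.pos_of_ne_zero (NeZero.ne N))) h1

end Fermat.Agent.S24.Comb
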