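import Fermat.Agent.S24.Comb.Defs

/-!
# S24 / C7a: invariant functions of a permutation module.   (one worker; statements frozen)

For a group `G` acting on a finite type `X` and `g : G`, the space of functions `v : X → ℚ` with
`v (g • x) = v x` has dimension the number of orbits of `⟨g⟩` on `X`.

Suggested proof: such a `v` is invariant under all of `Subgroup.zpowers g` (induction on the
exponent), hence constant on orbits, so `invSub X g ≃ₗ[ℚ] (MulAction.orbitRel.Quotient _ X → ℚ)`
(`v ↦ Quotient.lift v _`, inverse `w ↦ w ∘ Quotient.mk''`), and
`Module.finrank ℚ (Q → ℚ) = Fintype.card Q` (`Module.finrank_fintype_fun_eq_card`).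
-/

set_option autoImplicit false

noncomputable section

namespace Fermat.Agent.S24.Comb

/-- The functions `X → ℚ` invariant under `g`. -/
def invSub {G : Type*} (X : Type*) [Group G] [MulAction G X] (g : G) : Submodule ℚ (X → ℚ) where
  carrier := {v | ∀ x, v (g • x) = v x}
  add_mem' := fun {v w} hv hw x => by simp [hv x, hw x]
  zero_mem' := fun _ => rfl
  smul_mem' := fun c v hv x => by simp [hv x]

theorem mem_invSub {G X : Type*} [Group G] [MulAction G X] (g : G) (v : X → ℚ) :
    v ∈ invSub X g ↔ ∀ x, v (g • x) = v x := Iff.rfl

namespace Invariants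

variable {G X : Type*} [Group G] [MulAction G X]

/-- An invariant function is also invariant under `g⁻¹`. -/
theorem apply_inv_smul {g : G} {v : X → ℚ} (hv : v ∈ invSub X g) (x : X) :
    v (g⁻¹ • x) = v x := by
  have h := (mem_invSub g v).1 hv (g⁻¹ • x)
  rw [smul_inv_smul] at h
  exact h.symm

/-- An invariant function is invariant under all integer powers of `g`. -/
theorem apply_zpow_smul {g : G} {v : X → ℚ} (hv : v ∈ invSub X g) (k : ℤ) (x : X) :
    v (g ^ k • x) = v x := by
  induction k using Int.induction_on generalizing x with
  | zero => rw [zpow_zero, one_smul]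
  | succ n ih => rw [zpow_add_one, mul_smul, ih]; exact (mem_invSub g v).1 hv x
  | pred n ih => rw [zpow_sub_one, mul_smul, ih]; exact apply_inv_smul hv x

/-- An invariant function is invariant under the cyclic subgroup generated by `g`. -/
theorem apply_smul_of_mem {g : G} {v : X → ℚ} (hv : v ∈ invSub X g)
    (h : Subgroup.zpowers g) (x : X) : v (h • x) = v x := by
  obtain ⟨h, k, rfl⟩ := h
  exact apply_zpow_smul hv k x

/-- An invariant function is constant on the orbits of the cyclic subgroup generated by `g`. -/
theorem apply_eq_of_rel {g : G} {v : X → ℚ} (hv : v ∈ invSub X g) (a b : X)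
    (hab : (MulAction.orbitRel (Subgroup.zpowers g) X) a b) : v a = v b := by
  obtain ⟨h, rfl⟩ := hab
  exact apply_smul_of_mem hv h b

/-- `x` and `g • x` lie in the same orbit of the cyclic subgroup generated by `g`. -/
theorem mk_smul (g : G) (x : X) :
    (Quotient.mk'' (g • x) : MulAction.orbitRel.Quotient (Subgroup.zpowers g) X)
      = Quotient.mk'' x :=
  Quotient.sound' ⟨⟨g, Subgroup.mem_zpowers g⟩, rfl⟩

/-- The invariant functions are the functions on the orbit space. -/
def equivFun (g : G) :
    invSub X g ≃ₗ[ℚ] (MulAction.orbitRel.Quotient (Subgroup.zpowers g) X → ℚ) where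
  toFun v := fun q => Quotient.liftOn' q v.1 (fun a b hab => apply_eq_of_rel v.2 a b hab)
  map_add' v w := by
    funext q
    induction q using Quotient.inductionOn' with
    | h x => rfl
  map_smul' c v := by
    funext q
    induction q using Quotient.inductionOn' with
    | h x => rfl
  invFun w := ⟨fun x => w (Quotient.mk'' x), fun x => congrArg w (mk_smul g x)⟩
  left_inv v := by
    apply Subtype.ext
    funext x
    rfl
  right_inv w := by
    funext q
    induction q using Quotient.inductionOn' with
    | h x => rfl

end Invariants

/-- `dim (X → ℚ)^g = #orbits of ⟨g⟩`. -/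
theorem finrank_invSub {G X : Type*} [Group G] [MulAction G X] [Finite X] (g : G) :
    Module.finrank ℚ (invSub X g)
      = Nat.card (MulAction.orbitRel.Quotient (Subgroup.zpowers g) X) := by
  classical
  have : Fintype (MulAction.orbitRel.Quotient (Subgroup.zpowers g) X) := Fintype.ofFinite _
  rw [(Invariants.equivFun g).finrank_eq, Module.finrank_fintype_fun_eq_card,
    Nat.card_eq_fintype_card]

end Fermat.Agent.S24.Comb
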