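import Fermat.Agent.S24.Comb.Defs

/-!
# S24 / C1: primitive pairs mod `N` (definition; owner: helper20).
-/

set_option autoImplicit false

noncomputable section

namespace Fermat.Agent.S24.Comb

/-- The number of primitive pairs `(a, c) ∈ (ℤ/N)²`, i.e. pairs generating the unit ideal. -/
def primCount (N : ℕ) : ℕ := Nat.card {p : ZMod N × ZMod N // IsCoprime p.1 p.2}

end Fermat.Agent.S24.Comb
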