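import Fermat.Agent.S24.Comb.Defs

/-!
# S24 / C1a: `dedekindPsi` is multiplicative, and its values at prime powers.
(one worker; statements frozen)

`ModularCurve.dedekindPsi N = ∑ d ∈ N.divisors with Squarefree d, N / d`
(see `Fermat/Prelude/Def_ModularCurve_X0.lean`).

Hints.  Multiplicativity: for coprime `m, n` the divisors of `m * n` are the products `d * e`,
`d ∣ m`, `e ∣ n` (`Nat.Coprime.sum_divisors_mul`-type lemmas, `Nat.divisors_mul` /
`Nat.Coprime.divisors_mul...`, or `ArithmeticFunction`: `ψ = (indicator of squarefree) * id`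
as Dirichlet convolution and `ArithmeticFunction.IsMultiplicative.mul`), `Nat.squarefree_mul`
(for coprime factors), `(m * n) / (d * e) = (m / d) * (n / e)`.
Prime powers: the squarefree divisors of `p ^ k` (`k ≥ 1`) are `1` and `p`
(`Nat.divisors_prime_pow`, `Nat.squarefree_pow_iff` ...).

Proof implemented here: `ψ` is the Dirichlet convolution of the indicator function `sqf` of the
squarefree numbers with the identity; both are multiplicative arithmetic functions, hence so is
`ψ` (`ArithmeticFunction.IsMultiplicative.mul`).  For prime powers the sum over the divisors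
`p ^ i`, `i ≤ k`, is evaluated directly: only `i = 0` and `i = 1` contribute.
-/

set_option autoImplicit false

noncomputable section

namespace Fermat.Agent.S24.Comb

open ModularCurve

namespace PsiMul

/-- The indicator function of the squarefree numbers, as an arithmetic function. -/
def sqf : ArithmeticFunction ℕ :=
  ⟨fun n => if Squarefree n then 1 else 0, if_neg not_squarefree_zero⟩

theorem sqf_apply (n : ℕ) : sqf n = if Squarefree n then 1 else 0 := rfl

/-- The indicator function of the squarefree numbers is multiplicative. -/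
theorem sqf_isMultiplicative : ArithmeticFunction.IsMultiplicative sqf := by
  refine ⟨by rw [sqf_apply, if_pos squarefree_one], ?_⟩
  intro m n h
  rw [sqf_apply, sqf_apply, sqf_apply]
  by_cases hm : Squarefree m
  · by_cases hn : Squarefree n
    · rw [if_pos hm, if_pos hn, if_pos ((Nat.squarefree_mul h).2 ⟨hm, hn⟩), Nat.mul_one]
    · rw [if_neg hn, if_neg (fun hmn => hn ((Nat.squarefree_mul h).1 hmn).2), Nat.mul_zero]
  · rw [if_neg hm, if_neg (fun hmn => hm ((Nat.squarefree_mul h).1 hmn).1), Nat.zero_mul]

/-- `ψ` is the Dirichlet convolution of the squarefree indicator with the identity. -/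
theorem dedekindPsi_eq (N : ℕ) : dedekindPsi N = (sqf * ArithmeticFunction.id) N := by
  rw [ArithmeticFunction.mul_apply,
    Nat.sum_divisorsAntidiagonal (fun d e => sqf d * ArithmeticFunction.id e), dedekindPsi,
    Finset.sum_filter]
  refine Finset.sum_congr rfl fun d _ => ?_
  rw [sqf_apply, ArithmeticFunction.id_apply]
  by_cases hd : Squarefree d
  · rw [if_pos hd, if_pos hd, Nat.one_mul]
  · rw [if_neg hd, if_neg hd, Nat.zero_mul]

theorem isMultiplicative_sqf_mul_id :
    ArithmeticFunction.IsMultiplicative (sqf * ArithmeticFunction.id) :=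
  sqf_isMultiplicative.mul ArithmeticFunction.isMultiplicative_id

end PsiMul

theorem dedekindPsi_mul {m n : ℕ} (h : Nat.Coprime m n) :
    dedekindPsi (m * n) = dedekindPsi m * dedekindPsi n := by
  rw [PsiMul.dedekindPsi_eq, PsiMul.dedekindPsi_eq, PsiMul.dedekindPsi_eq]
  exact PsiMul.isMultiplicative_sqf_mul_id.map_mul_of_coprime h

theorem dedekindPsi_prime_pow {p k : ℕ} (hp : p.Prime) (hk : 0 < k) :
    dedekindPsi (p ^ k) = p ^ k + p ^ (k - 1) := by
  obtain ⟨j, rfl⟩ : ∃ j, k = j + 1 := ⟨k - 1, by omega⟩
  rw [dedekindPsi, Finset.sum_filter, Nat.sum_divisors_prime_pow hp, Finset.sum_range_succ',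
    Finset.sum_range_succ', Nat.add_sub_cancel]
  have h0 : ∑ i ∈ Finset.range j,
      (if Squarefree (p ^ (i + 1 + 1)) then p ^ (j + 1) / p ^ (i + 1 + 1) else 0) = 0 := by
    refine Finset.sum_eq_zero fun i _ => if_neg ?_
    rw [Nat.squarefree_pow_iff hp.ne_one (by omega)]
    omega
  rw [h0, Nat.zero_add, Nat.zero_add, Nat.pow_zero, Nat.pow_one, if_pos squarefree_one,
    if_pos hp.squarefree, Nat.div_one, Nat.pow_succ, Nat.mul_div_cancel _ hp.pos, Nat.add_comm]

end Fermat.Agent.S24.Comb
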